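/-
TW-GW (task 313): shared definitions for the Greenberg–Wiles bound.

The adjoint representation `ad⁰` of `rb : GQ →* Mat2 k` twisted by a character `χ`, regarded as a
representation over `𝔽_p = ZMod p` (restriction of scalars; the Poitou–Tate engine is instantiated
for `k = 𝔽_p`):

* `adRep p rb χ : Representation (ZMod p) GQ (sl2 k)`, `adRep_apply`;
* `isSmooth_adRep` : smoothness for `Bridge.datum S` when `rb`, `χ` are of finite level and
  unramified outside `S`; `isSmooth_adRep_one`, `isSmooth_adRep_det`;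
* `trPair p : sl2 k →ₗ[𝔽_p] sl2 k →ₗ[𝔽_p] 𝔽_p`, `(X, Y) ↦ Tr_{k/𝔽_p} (tr (X * Y))`, and its
  equivariance `trPair_equivariant` : `ad⁰(det) × ad⁰ → 𝔽_p(χ_cyc)`;
* `det_eq_cycloChar` : `det rb = χ_cyc` under `ResidualHyp`;
* `PT.PTOut p S` (re-exported from `PT/Out.lean`) : the bundle of Poitou–Tate end products.
-/
import Mathlib
import Fermat.Agent.TW.Basic
import Fermat.Agent.PT.Out
import Fermat.Agent.PT.DualTwist

set_option autoImplicit false

namespace Fermat.Agent.TW.GW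

open Fermat.Agent.S53 Fermat.Agent.PT Fermat.Agent.PT.Bridge ExtCitation

local notation "Qb" => AlgebraicClosure ℚ

noncomputable section

variable {k : Type} [Field k] (p : ℕ) [Fact p.Prime] [Algebra (ZMod p) k]

/-- The twisted adjoint action preserves trace-zero matrices. -/
theorem adAct_mem_sl2 (rb : GQ →* Mat2 k) (χ : GQ →* kˣ) (g : GQ) {X : Mat2 k}
    (hX : X ∈ sl2 k) : adAct rb χ g X ∈ sl2 k := by
  rw [mem_sl2] at hX ⊢
  rw [trace_adAct, hX, mul_zero]

/-- **The `χ`-twisted adjoint representation on trace-zero matrices, over `𝔽_p`.** -/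
def adRep (rb : GQ →* Mat2 k) (χ : GQ →* kˣ) : Representation (ZMod p) GQ (sl2 k) where
  toFun g := ((adAct rb χ g).restrict fun _ hX => adAct_mem_sl2 rb χ g hX).restrictScalars
    (ZMod p)
  map_one' := by
    ext X : 2
    exact adAct_one rb χ X
  map_mul' g h := by
    ext X : 2
    exact adAct_mul rb χ g h X

@[simp] theorem adRep_apply (rb : GQ →* Mat2 k) (χ : GQ →* kˣ) (g : GQ) (X : sl2 k) :
    ((adRep p rb χ g X : sl2 k) : Mat2 k) = adAct rb χ g X := rfl

/-- `adRep` is trivial at `g` when `rb g = 1` and `χ g = 1`. -/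
theorem adRep_eq_one_of (rb : GQ →* Mat2 k) (χ : GQ →* kˣ) (g : GQ) (h : rb g = 1)
    (hχ : χ g = 1) : adRep p rb χ g = 1 := by
  ext X : 2
  exact adAct_eq_of_rb_eq_one rb χ g h hχ X

/-- **Smoothness of `adRep` for the datum of `(ℚ, S)`**: `rb` and `χ` of finite level and
unramified outside `S`. -/
theorem isSmooth_adRep [Module.Finite (ZMod p) k] (S : Finset Nat.Primes) {rb : GQ →* Mat2 k}
    {χ : GQ →* kˣ} (hrb : FiniteLevel rb) (hχ : FiniteLevel χ)
    (hunr : ∀ q : Nat.Primes, q ∉ S → ∀ P : ValuationSubring Qb, P.LiesOverPrime (q : ℕ) →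
      ∀ σ ∈ P.inertiaSubgroupIn ℚ, rb σ = 1 ∧ χ σ = 1) :
    (datum S).IsSmooth (adRep p rb χ) := by
  have hfin : Module.Finite (ZMod p) (Mat2 k) := Module.Finite.matrix
  have hfin' : Module.Finite (ZMod p) (sl2 k) :=
    Module.Finite.of_injective ((sl2 k).subtype.restrictScalars (ZMod p))
      (sl2 k).injective_subtype
  refine isSmooth_of_smooth_unramified S (Rep.of (adRep p rb χ)) (fun m => ?_)
    (fun q hq P hP g hg => ?_)
  · obtain ⟨F, hF, hF'⟩ := hrb
    obtain ⟨F', hF2, hF2'⟩ := hχ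
    refine ⟨F ⊔ F', IntermediateField.finiteDimensional_sup F F', fun s hs => ?_⟩
    have h1 : rb s = 1 := hF' s fun x hx =>
      (IntermediateField.mem_fixingSubgroup_iff _ _).mp hs x ((le_sup_left : F ≤ F ⊔ F') hx)
    have h2 : χ s = 1 := hF2' s fun x hx =>
      (IntermediateField.mem_fixingSubgroup_iff _ _).mp hs x ((le_sup_right : F' ≤ F ⊔ F') hx)
    show adRep p rb χ s m = m
    rw [adRep_eq_one_of p rb χ s h1 h2]
    rfl
  · exact adRep_eq_one_of p rb χ g (hunr q hq P hP g hg).1 (hunr q hq P hP g hg).2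

/-- Smoothness of `ad⁰ = adRep rb 1`. -/
theorem isSmooth_adRep_one [Module.Finite (ZMod p) k] (S : Finset Nat.Primes)
    {rb : GQ →* Mat2 k} (hrb : FiniteLevel rb)
    (hunr : ∀ q : Nat.Primes, q ∉ S → ∀ P : ValuationSubring Qb, P.LiesOverPrime (q : ℕ) →
      ∀ σ ∈ P.inertiaSubgroupIn ℚ, rb σ = 1) :
    (datum S).IsSmooth (adRep p rb 1) :=
  isSmooth_adRep p S hrb finiteLevel_one_hom fun q hq P hP σ hσ => ⟨hunr q hq P hP σ hσ, rfl⟩

/-- Smoothness of `ad⁰(1) = adRep rb (detChar rb)`. -/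
theorem isSmooth_adRep_det [Module.Finite (ZMod p) k] (S : Finset Nat.Primes)
    {rb : GQ →* Mat2 k} (hrb : FiniteLevel rb)
    (hunr : ∀ q : Nat.Primes, q ∉ S → ∀ P : ValuationSubring Qb, P.LiesOverPrime (q : ℕ) →
      ∀ σ ∈ P.inertiaSubgroupIn ℚ, rb σ = 1) :
    (datum S).IsSmooth (adRep p rb (detChar rb)) :=
  isSmooth_adRep p S hrb (finiteLevel_detChar hrb) fun q hq P hP σ hσ =>
    ⟨hunr q hq P hP σ hσ, Units.ext (by
      rw [detChar_apply, hunr q hq P hP σ hσ, Matrix.det_one, Units.val_one])⟩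

/-- Under `ResidualHyp`, `det rb` is the mod `p` cyclotomic character. -/
theorem det_eq_cycloChar {rb : GQ →* Mat2 k} (h : ResidualHyp rb p) (σ : GQ) :
    (rb σ).det = algebraMap (ZMod p) k ((cycloChar p σ : (ZMod p)ˣ) : ZMod p) := by
  rw [coe_cycloChar, map_natCast]
  exact h.detCyc σ _ fun μ hμ => DualTwist.cycloExp_spec' p σ μ hμ

/-- **The trace pairing** `sl2 k × sl2 k → 𝔽_p`, `(X, Y) ↦ Tr_{k/𝔽_p} (tr (X * Y))`. -/
def trPair : sl2 k →ₗ[ZMod p] sl2 k →ₗ[ZMod p] ZMod p :=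
  LinearMap.mk₂ (ZMod p)
    (fun X Y => Algebra.trace (ZMod p) k (Matrix.trace ((X : Mat2 k) * (Y : Mat2 k))))
    (fun X X' Y => by
      show Algebra.trace (ZMod p) k (Matrix.trace (((X + X' : sl2 k) : Mat2 k) * (Y : Mat2 k)))
        = _
      rw [Submodule.coe_add, add_mul, Matrix.trace_add, map_add])
    (fun c X Y => by
      show Algebra.trace (ZMod p) k (Matrix.trace (((c • X : sl2 k) : Mat2 k) * (Y : Mat2 k)))
        = _
      rw [Submodule.coe_smul_of_tower, Matrix.smul_mul, Matrix.trace_smul, map_smul])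
    (fun X Y Y' => by
      show Algebra.trace (ZMod p) k (Matrix.trace ((X : Mat2 k) * ((Y + Y' : sl2 k) : Mat2 k)))
        = _
      rw [Submodule.coe_add, mul_add, Matrix.trace_add, map_add])
    (fun c X Y => by
      show Algebra.trace (ZMod p) k (Matrix.trace ((X : Mat2 k) * ((c • Y : sl2 k) : Mat2 k)))
        = _
      rw [Submodule.coe_smul_of_tower, Matrix.mul_smul, Matrix.trace_smul, map_smul])

theorem trPair_apply (X Y : sl2 k) :
    trPair p X Y = Algebra.trace (ZMod p) k (Matrix.trace ((X : Mat2 k) * (Y : Mat2 k))) := rfl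

/-- `tr (ad_χ(g) X * ad_χ'(g) Y) = χ(g) χ'(g) tr (X * Y)`. -/
theorem trace_adAct_mul_adAct (rb : GQ →* Mat2 k) (χ χ' : GQ →* kˣ) (g : GQ) (X Y : Mat2 k) :
    Matrix.trace (adAct rb χ g X * adAct rb χ' g Y) =
      ((χ g : kˣ) : k) * ((χ' g : kˣ) : k) * Matrix.trace (X * Y) := by
  rw [adAct_apply, adAct_apply, Matrix.smul_mul, Matrix.mul_smul, Matrix.trace_smul,
    Matrix.trace_smul, smul_eq_mul, smul_eq_mul, ← mul_assoc]
  congr 1
  have h1 : rb g * X * rb g⁻¹ * (rb g * Y * rb g⁻¹) = rb g * (X * Y) * rb g⁻¹ := by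
    have := rb_inv_mul_rb rb g
    calc rb g * X * rb g⁻¹ * (rb g * Y * rb g⁻¹)
        = rb g * X * (rb g⁻¹ * rb g) * Y * rb g⁻¹ := by simp only [mul_assoc]
      _ = rb g * (X * Y) * rb g⁻¹ := by rw [this, mul_one]; simp only [mul_assoc]
  rw [h1, Matrix.trace_mul_comm, ← mul_assoc, rb_inv_mul_rb, one_mul]

/-- **Equivariance of the trace pairing**: `ad⁰(1) × ad⁰ → 𝔽_p(χ_cyc)`. -/
theorem trPair_equivariant {rb : GQ →* Mat2 k} (h : ResidualHyp rb p) (g : GQ) (X Y : sl2 k) :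
    trPair p (adRep p rb (detChar rb) g X) (adRep p rb 1 g Y) =
      Base.chiRep (cycloChar p) g (trPair p X Y) := by
  rw [trPair_apply, adRep_apply, adRep_apply, trace_adAct_mul_adAct, detChar_apply,
    one_hom_apply_coe, mul_one, det_eq_cycloChar p h, Base.chiRep_apply, trPair_apply,
    ← Algebra.smul_def, map_smul, smul_eq_mul]

end

end Fermat.Agent.TW.GW
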