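/-
TW-GW (task 256, GW-ASM): cocycle-level lemmas for the assembly of the Greenberg–Wiles bound.
TW vocabulary only (no Poitou–Tate cohomology).

* `primesOfNat S` : the primes of a `Finset ℕ` as a `Finset Nat.Primes`;
* `Z1S rb χ S` : cocycles unramified outside `S` (vanishing on inertia at every prime outside `S`),
  `B1_le_Z1S`, `Z1S_mono`, `Z1S_le_Z1`;
* `unrAt_of_locTrivAt`, `locTrivAt_of_resOn_mem_B1On` (all places over a prime are conjugate, so
  local triviality at one place gives local triviality at the prime), `resOn_mem_B1On_of_locTrivAt`;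
* `selSpace_le_Z1S`, `resOn_mem_of_mem_selSpace`, `resOn_mem_unrLoc_of_mem_selSpace` : the Selmer
  space in terms of `Z1S` and the local conditions;
* `card_fiber_le`, `card_fiber_eq` : counting along an additive map.
-/
import Mathlib
import Fermat.Agent.TW.Basic
import Fermat.Agent.TW.Selmer
import Fermat.Agent.TW.FrobConj
import Fermat.Agent.TW.Local.AwayCore

set_option autoImplicit false

namespace Fermat.Agent.TW.GW

open Fermat.Agent.S53

open scoped Pointwise

noncomputable section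

variable {k : Type} [Field k]

/-! ### (A1) finite sets of primes -/

/-- The primes of a finite set of natural numbers. -/
def primesOfNat (S : Finset ℕ) : Finset Nat.Primes := S.subtype Nat.Prime

theorem mem_primesOfNat (S : Finset ℕ) (q : Nat.Primes) : q ∈ primesOfNat S ↔ (q : ℕ) ∈ S :=
  Finset.mem_subtype

/-! ### (A2) cocycles unramified outside a finite set of primes -/

/-- Cocycles of `GQ` which vanish on every inertia group over every prime outside `S`. -/
def Z1S (rb : GQ →* Mat2 k) (χ : GQ →* kˣ) (S : Finset Nat.Primes) :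
    Submodule k (GQ → Mat2 k) where
  carrier := {c | c ∈ Z1 rb χ ∧ ∀ ℓ : Nat.Primes, ℓ ∉ S → UnrAt c (ℓ : ℕ)}
  add_mem' := by
    rintro c c' ⟨h1, h2⟩ ⟨h1', h2'⟩
    refine ⟨add_mem h1 h1', fun ℓ hℓ P hP σ hσ => ?_⟩
    rw [Pi.add_apply, h2 ℓ hℓ P hP σ hσ, h2' ℓ hℓ P hP σ hσ, add_zero]
  zero_mem' := ⟨zero_mem _, fun _ _ _ _ _ _ => rfl⟩
  smul_mem' := by
    rintro a c ⟨h1, h2⟩
    refine ⟨Submodule.smul_mem _ a h1, fun ℓ hℓ P hP σ hσ => ?_⟩
    rw [Pi.smul_apply, h2 ℓ hℓ P hP σ hσ, smul_zero]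

theorem mem_Z1S (rb : GQ →* Mat2 k) (χ : GQ →* kˣ) (S : Finset Nat.Primes) (c : GQ → Mat2 k) :
    c ∈ Z1S rb χ S ↔ c ∈ Z1 rb χ ∧ ∀ ℓ : Nat.Primes, ℓ ∉ S → UnrAt c (ℓ : ℕ) := Iff.rfl

theorem Z1S_le_Z1 (rb : GQ →* Mat2 k) (χ : GQ →* kˣ) (S : Finset Nat.Primes) :
    Z1S rb χ S ≤ Z1 rb χ := fun _ hc => hc.1

theorem Z1S_mono (rb : GQ →* Mat2 k) (χ : GQ →* kˣ) {S S' : Finset Nat.Primes} (h : S ⊆ S') :
    Z1S rb χ S ≤ Z1S rb χ S' := fun _ hc => ⟨hc.1, fun ℓ hℓ => hc.2 ℓ fun hℓ' => hℓ (h hℓ')⟩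

/-- Coboundaries are unramified outside `S` when `rb` and `χ` are. -/
theorem B1_le_Z1S {rb : GQ →* Mat2 k} {χ : GQ →* kˣ} (hrb : FiniteLevel rb)
    (hχ : FiniteLevel χ) (S : Finset Nat.Primes)
    (hunr : ∀ q : Nat.Primes, q ∉ S → ∀ P : ValuationSubring (AlgebraicClosure ℚ),
      P.LiesOverPrime (q : ℕ) → ∀ σ ∈ P.inertiaSubgroupIn ℚ, rb σ = 1 ∧ χ σ = 1) :
    B1 rb χ ≤ Z1S rb χ S := by
  intro c hc
  refine ⟨B1_le_Z1 hrb hχ hc, fun ℓ hℓ P hP σ hσ => ?_⟩
  obtain ⟨X, -, rfl⟩ := hc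
  rw [cob_apply, adAct_eq_of_rb_eq_one rb χ σ (hunr ℓ hℓ P hP σ hσ).1 (hunr ℓ hℓ P hP σ hσ).2,
    sub_self]

/-- `det rb` is trivial where `rb` is. -/
theorem detChar_eq_one_of (rb : GQ →* Mat2 k) (σ : GQ) (h : rb σ = 1) : detChar rb σ = 1 :=
  Units.ext (by rw [detChar_apply, h, Matrix.det_one, Units.val_one])

theorem B1_le_Z1S_one {rb : GQ →* Mat2 k} (hrb : FiniteLevel rb) (S : Finset Nat.Primes)
    (hunr : ∀ q : Nat.Primes, q ∉ S → ∀ P : ValuationSubring (AlgebraicClosure ℚ),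
      P.LiesOverPrime (q : ℕ) → ∀ σ ∈ P.inertiaSubgroupIn ℚ, rb σ = 1) :
    B1 rb 1 ≤ Z1S rb 1 S :=
  B1_le_Z1S hrb finiteLevel_one_hom S fun q hq P hP σ hσ => ⟨hunr q hq P hP σ hσ, rfl⟩

theorem B1_le_Z1S_det {rb : GQ →* Mat2 k} (hrb : FiniteLevel rb) (S : Finset Nat.Primes)
    (hunr : ∀ q : Nat.Primes, q ∉ S → ∀ P : ValuationSubring (AlgebraicClosure ℚ),
      P.LiesOverPrime (q : ℕ) → ∀ σ ∈ P.inertiaSubgroupIn ℚ, rb σ = 1) :
    B1 rb (detChar rb) ≤ Z1S rb (detChar rb) S :=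
  B1_le_Z1S hrb (finiteLevel_detChar hrb) S fun q hq P hP σ hσ =>
    ⟨hunr q hq P hP σ hσ, detChar_eq_one_of rb σ (hunr q hq P hP σ hσ)⟩

/-! ### (A3), (A4) local triviality -/

/-- A cocycle which is locally trivial at `q` vanishes on inertia at `q`, when `rb` and `χ` are
unramified at `q`. -/
theorem unrAt_of_locTrivAt {rb : GQ →* Mat2 k} {χ : GQ →* kˣ} {d : GQ → Mat2 k} {q : ℕ}
    (h : LocTrivAt rb χ d q)
    (hunr : ∀ P : ValuationSubring (AlgebraicClosure ℚ), P.LiesOverPrime q →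
      ∀ σ ∈ P.inertiaSubgroupIn ℚ, rb σ = 1 ∧ χ σ = 1) : UnrAt d q := by
  intro P hP σ hσ
  obtain ⟨X, -, hX⟩ := h P hP
  rw [hX σ (Away.inertiaSubgroupIn_le P hσ),
    adAct_eq_of_rb_eq_one rb χ σ (hunr P hP σ hσ).1 (hunr P hP σ hσ).2, sub_self]

/-- Local triviality at `q` restricts to every decomposition group over `q`. -/
theorem resOn_mem_B1On_of_locTrivAt {rb : GQ →* Mat2 k} {χ : GQ →* kˣ} {d : GQ → Mat2 k}
    {q : ℕ} (h : LocTrivAt rb χ d q) (P : ValuationSubring (AlgebraicClosure ℚ))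
    (hP : P.LiesOverPrime q) :
    resOn (P.decompositionSubgroup ℚ) d ∈ B1On (P.decompositionSubgroup ℚ) rb χ := by
  obtain ⟨X, hX, hX'⟩ := h P hP
  exact (mem_B1On _ rb χ _).2 ⟨X, hX, fun σ => hX' σ σ.2⟩

/-- A cocycle which is a coboundary on the decomposition group of `P₀` is a coboundary on the
decomposition group of every conjugate `τ • P₀`. -/
theorem exists_cob_on_smul {rb : GQ →* Mat2 k} {χ : GQ →* kˣ} {d : GQ → Mat2 k}
    (hd : d ∈ Z1 rb χ) (P₀ : ValuationSubring (AlgebraicClosure ℚ)) (τ : GQ) {X : Mat2 k}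
    (hX : X.trace = 0) (hX' : ∀ σ ∈ P₀.decompositionSubgroup ℚ, d σ = adAct rb χ σ X - X) :
    ∃ Y : Mat2 k, Y.trace = 0 ∧
      ∀ σ ∈ (τ • P₀).decompositionSubgroup ℚ, d σ = adAct rb χ σ Y - Y := by
  refine ⟨adAct rb χ τ X - d τ, ?_, fun σ hσ => ?_⟩
  · rw [Matrix.trace_sub, trace_adAct, hX, mul_zero, hd.1 τ, sub_zero]
  · have hσ' : σ • (τ • P₀) = τ • P₀ := hσ
    have hmem : τ⁻¹ * σ * τ ∈ P₀.decompositionSubgroup ℚ := by
      show (τ⁻¹ * σ * τ) • P₀ = P₀
      rw [mul_smul, mul_smul, hσ', inv_smul_smul]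
    have h1 := hX' _ hmem
    have h2 : d (τ⁻¹ * σ * τ) = adAct rb χ τ⁻¹ (- d τ + d σ + adAct rb χ σ (d τ)) := by
      rw [mul_assoc, hd.2.1 τ⁻¹ (σ * τ), hd.2.1 σ τ, Z1_map_inv hd τ]
      simp only [map_add, map_neg]
      abel
    rw [h2] at h1
    have h3 := congrArg (adAct rb χ τ) h1
    have h5 : τ * (τ⁻¹ * σ * τ) = σ * τ := by
      rw [← mul_assoc, ← mul_assoc, mul_inv_cancel, one_mul]
    rw [adAct_adAct_inv, map_sub, ← adAct_mul, h5, adAct_mul] at h3
    rw [map_sub]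
    have h4 : d σ = (- d τ + d σ + adAct rb χ σ (d τ)) + d τ - adAct rb χ σ (d τ) := by abel
    rw [h4, h3]
    abel

/-- **Conjugacy.** A cocycle whose restriction to ONE decomposition group over the prime `q` is a
coboundary is locally trivial at `q`. -/
theorem locTrivAt_of_resOn_mem_B1On {rb : GQ →* Mat2 k} {χ : GQ →* kˣ} {d : GQ → Mat2 k}
    {q : ℕ} (hq : q.Prime) (P₀ : ValuationSubring (AlgebraicClosure ℚ))
    (hP₀ : P₀.LiesOverPrime q) (hd : d ∈ Z1 rb χ)
    (h : resOn (P₀.decompositionSubgroup ℚ) d ∈ B1On (P₀.decompositionSubgroup ℚ) rb χ) :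
    LocTrivAt rb χ d q := by
  intro P hP
  obtain ⟨X, hX, hX'⟩ := (mem_B1On _ rb χ _).1 h
  obtain ⟨τ, rfl⟩ := FrobConj.exists_smul_eq_of_liesOverPrime hq P₀ P hP₀ hP
  exact exists_cob_on_smul hd P₀ τ hX fun σ hσ => hX' ⟨σ, hσ⟩

/-! ### (A5) the Selmer space -/

/-- The Selmer space consists of cocycles unramified outside `Smin ∪ T ∪ Q`. -/
theorem selSpace_le_Z1S (rb : GQ →* Mat2 k) (p : ℕ) (Smin Q : Finset ℕ) (Lp : LocFamily k)
    (T : Finset Nat.Primes) :
    SelSpace rb p Smin Q Lp ≤ Z1S rb 1 (primesOfNat Smin ∪ T ∪ primesOfNat Q) := by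
  intro c hc
  refine ⟨hc.1, fun ℓ hℓ => hc.2.1 (ℓ : ℕ) ℓ.2 fun hmem => hℓ ?_⟩
  rcases Finset.mem_union.1 hmem with h | h
  · exact Finset.mem_union_left _ (Finset.mem_union_left _ ((mem_primesOfNat _ _).2 h))
  · exact Finset.mem_union_right _ ((mem_primesOfNat _ _).2 h)

/-- The local condition at `p`. -/
theorem resOn_mem_of_mem_selSpace {rb : GQ →* Mat2 k} {p : ℕ} {Smin Q : Finset ℕ}
    {Lp : LocFamily k} {c : GQ → Mat2 k} (hc : c ∈ SelSpace rb p Smin Q Lp)
    (P : ValuationSubring (AlgebraicClosure ℚ)) (hP : P.LiesOverPrime p) :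
    resOn (P.decompositionSubgroup ℚ) c ∈ Lp P := hc.2.2.2 P hP

/-- The unramified local condition at every prime `q ≠ p` outside `Q`. -/
theorem resOn_mem_unrLoc_of_mem_selSpace {rb : GQ →* Mat2 k} {p : ℕ} {Smin Q : Finset ℕ}
    {Lp : LocFamily k} {c : GQ → Mat2 k} (hc : c ∈ SelSpace rb p Smin Q Lp) {q : ℕ}
    (hq : q.Prime) (hqp : q ≠ p) (hqQ : q ∉ Q) (P : ValuationSubring (AlgebraicClosure ℚ))
    (hP : P.LiesOverPrime q) : resOn (P.decompositionSubgroup ℚ) c ∈ unrLoc rb 1 P := by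
  refine (mem_unrLoc rb 1 P _).2 ⟨resOn_mem_Z1On _ hc.1, ?_⟩
  by_cases hqS : q ∈ Smin
  · obtain ⟨X, hX, hX'⟩ := hc.2.2.1 q hqS hqp P hP
    exact ⟨X, hX, fun σ hσ => hX' σ hσ⟩
  · refine ⟨0, Matrix.trace_zero _ _, fun σ hσ => ?_⟩
    have hn : q ∉ Smin ∪ Q := fun h => (Finset.mem_union.1 h).elim hqS hqQ
    rw [map_zero, sub_zero]
    exact hc.2.1 q hq hn P hP σ hσ

/-! ### (A6) counting along an additive map -/

/-- Counting along an additive map: a set which maps into a finite set `T` has at most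
`#ker · #T` elements. -/
theorem card_fiber_le {Z H : Type*} [AddGroup Z] [AddGroup H] (f : Z →+ H)
    [Finite {z : Z // f z = 0}] (T : Set H) [Finite T] (A : Set Z) (hA : ∀ z ∈ A, f z ∈ T) :
    Finite A ∧ Nat.card A ≤ Nat.card {z : Z // f z = 0} * Nat.card T := by
  classical
  -- a representative in `A` of each fibre
  let r : T → Z := fun t => if h : ∃ z ∈ A, f z = t then h.choose else 0
  have hr : ∀ z (hz : z ∈ A), f (r ⟨f z, hA z hz⟩) = f z := by
    intro z hz
    have h : ∃ z' ∈ A, f z' = f z := ⟨z, hz, rfl⟩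
    simp only [r, dif_pos h]
    exact h.choose_spec.2
  let g : A → {z : Z // f z = 0} × T := fun a =>
    (⟨-(r ⟨f a, hA a a.2⟩) + a, by rw [map_add, map_neg, hr a a.2, neg_add_cancel]⟩,
      ⟨f a, hA a a.2⟩)
  have hg : Function.Injective g := by
    intro a b hab
    have h1 : f (a : Z) = f b := congrArg (fun x => ((x.2 : T) : H)) hab
    have h2 : -(r ⟨f a, hA a a.2⟩) + (a : Z) = -(r ⟨f b, hA b b.2⟩) + b :=
      congrArg (fun x => ((x.1 : {z : Z // f z = 0}) : Z)) hab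
    have h3 : r ⟨f a, hA a a.2⟩ = r ⟨f b, hA b b.2⟩ := by
      congr 1
      exact Subtype.ext h1
    rw [h3] at h2
    exact Subtype.ext (add_left_cancel h2)
  have : Finite A := Finite.of_injective g hg
  refine ⟨this, ?_⟩
  calc Nat.card A ≤ Nat.card ({z : Z // f z = 0} × T) := Nat.card_le_card_of_injective g hg
    _ = Nat.card {z : Z // f z = 0} * Nat.card T := Nat.card_prod _ _

/-- Counting along a surjective additive map: the preimage of `T` has exactly `#ker · #T`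
elements. -/
theorem card_fiber_eq {Z H : Type*} [AddGroup Z] [AddGroup H] (f : Z →+ H)
    (hf : Function.Surjective f) (T : Set H) :
    Nat.card {z : Z // f z ∈ T} = Nat.card {z : Z // f z = 0} * Nat.card T := by
  classical
  let s : H → Z := fun t => (hf t).choose
  have hs : ∀ t, f (s t) = t := fun t => (hf t).choose_spec
  let e : {z : Z // f z ∈ T} ≃ {z : Z // f z = 0} × T :=
    { toFun := fun a => (⟨-(s (f a)) + a, by rw [map_add, map_neg, hs, neg_add_cancel]⟩,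
        ⟨f a, a.2⟩)
      invFun := fun x => ⟨s x.2 + x.1, by
        show f (s x.2 + x.1) ∈ T
        rw [map_add, hs, x.1.2, add_zero]
        exact x.2.2⟩
      left_inv := fun a => by
        apply Subtype.ext
        show s (f a) + (-(s (f a)) + (a : Z)) = a
        rw [add_neg_cancel_left]
      right_inv := fun x => by
        have h1 : f (s x.2 + (x.1 : Z)) = x.2 := by rw [map_add, hs, x.1.2, add_zero]
        apply Prod.ext
        · apply Subtype.ext
          show -(s (f (s x.2 + (x.1 : Z)))) + (s x.2 + (x.1 : Z)) = x.1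
          rw [h1, neg_add_cancel_left]
        · exact Subtype.ext h1 }
  rw [Nat.card_congr e, Nat.card_prod]

/-! ### (A7) the two counts of the assembly, abstractly -/

/-- Coboundaries are finite in number over a finite field. -/
theorem finite_B1 [Finite k] (rb : GQ →* Mat2 k) (χ : GQ →* kˣ) : Finite (B1 rb χ) := by
  have h : Function.Surjective fun X : sl2 k => (⟨cob rb χ X, X, X.2, rfl⟩ : B1 rb χ) := by
    rintro ⟨c, X, hX, rfl⟩
    exact ⟨⟨X, hX⟩, rfl⟩
  have : Finite (sl2 k) := Finite.of_injective (fun X : sl2 k => (X : Mat2 k))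
    Subtype.val_injective
  exact Finite.of_surjective _ h

/-- **Primal count.** If the class map `cls` on `Z` has kernel inside `B` and sends `𝒮 ≤ Z` into
a finite set `T`, then `#𝒮 ≤ #B · #T`. -/
theorem card_le_of_cls {V H : Type*} [AddCommGroup V] [Module k V] [AddGroup H]
    (Z B 𝒮 : Submodule k V) (h𝒮 : 𝒮 ≤ Z) (cls : Z →+ H) [Finite B]
    (hker : ∀ z : Z, cls z = 0 → (z : V) ∈ B) (T : Set H) [Finite T]
    (hT : ∀ z : Z, (z : V) ∈ 𝒮 → cls z ∈ T) :
    Finite 𝒮 ∧ Nat.card 𝒮 ≤ Nat.card B * Nat.card T := by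
  have hfin : Finite {z : Z // cls z = 0} :=
    Finite.of_injective (fun z : {z : Z // cls z = 0} => (⟨(z : Z), hker z z.2⟩ : B))
      fun a b hab => Subtype.ext (Subtype.ext (congrArg (fun x : B => (x : V)) hab))
  have hle : Nat.card {z : Z // cls z = 0} ≤ Nat.card B :=
    Nat.card_le_card_of_injective (fun z : {z : Z // cls z = 0} => (⟨(z : Z), hker z z.2⟩ : B))
      fun a b hab => Subtype.ext (Subtype.ext (congrArg (fun x : B => (x : V)) hab))
  obtain ⟨hA, hcard⟩ := card_fiber_le cls T {z : Z | (z : V) ∈ 𝒮} hT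
  let e : 𝒮 → {z : Z | (z : V) ∈ 𝒮} := fun c => ⟨⟨(c : V), h𝒮 c.2⟩, c.2⟩
  have he : Function.Injective e := fun a b hab =>
    Subtype.ext (congrArg (fun x : {z : Z | (z : V) ∈ 𝒮} => ((x : Z) : V)) hab)
  have h𝒮fin : Finite 𝒮 := Finite.of_injective e he
  refine ⟨h𝒮fin, ?_⟩
  calc Nat.card 𝒮 ≤ Nat.card {z : Z | (z : V) ∈ 𝒮} := Nat.card_le_card_of_injective e he
    _ ≤ Nat.card {z : Z // cls z = 0} * Nat.card T := hcard
    _ ≤ Nat.card B * Nat.card T := Nat.mul_le_mul_right _ hle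

/-- **Dual count.** If the class map `cls` on `Z ≥ B` is surjective with kernel `B` and the
preimage of `T` lies in a finite set `A`, then `#B · #T ≤ #A`. -/
theorem card_mul_le_of_cls {V H : Type*} [AddCommGroup V] [Module k V] [AddGroup H]
    (Z B : Submodule k V) (hB : B ≤ Z) (cls : Z →+ H) (hsurj : Function.Surjective cls)
    (hker : ∀ z : Z, cls z = 0 ↔ (z : V) ∈ B) (T : Set H) (A : Set V) [Finite A]
    (hA : ∀ z : Z, cls z ∈ T → (z : V) ∈ A) :
    Nat.card B * Nat.card T ≤ Nat.card A := by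
  have h1 := card_fiber_eq cls hsurj T
  let e : {z : Z // cls z = 0} ≃ B :=
    { toFun := fun z => ⟨(z : Z), (hker z).1 z.2⟩
      invFun := fun b => ⟨⟨(b : V), hB b.2⟩, (hker _).2 b.2⟩
      left_inv := fun _ => rfl
      right_inv := fun _ => rfl }
  rw [Nat.card_congr e] at h1
  rw [← h1]
  exact Nat.card_le_card_of_injective (fun z : {z : Z // cls z ∈ T} => (⟨(z : Z), hA z z.2⟩ : A))
    fun a b hab => Subtype.ext (Subtype.ext (congrArg (fun x : A => (x : V)) hab))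

/-- Finiteness of the source of a class map with finite kernel and finite target. -/
theorem finite_of_cls {V H : Type*} [AddCommGroup V] [Module k V] [AddGroup H] [Finite H]
    (Z B : Submodule k V) (cls : Z →+ H) [Finite B]
    (hker : ∀ z : Z, cls z = 0 → (z : V) ∈ B) : Finite Z := by
  have h := (card_le_of_cls Z B Z le_rfl cls hker Set.univ fun _ _ => Set.mem_univ _).1
  exact h

/-- **The arithmetic of the Greenberg–Wiles inequality**: from
`dim Sel + f ≤ dim Sel* + (1 + n) f` over `𝔽_p` (`f = [k : 𝔽_p]`) to `#Sel ≤ #Sel* · #k ^ n`. -/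
theorem card_le_card_mul_pow_of_finrank (p : ℕ) [Fact p.Prime] [Finite k] [Algebra (ZMod p) k]
    {V W : Type*} [AddCommGroup V] [Module (ZMod p) V] [Module.Finite (ZMod p) V]
    [AddCommGroup W] [Module (ZMod p) W] [Module.Finite (ZMod p) W] (n : ℕ)
    (h : Module.finrank (ZMod p) V + Module.finrank (ZMod p) k ≤
      Module.finrank (ZMod p) W + (1 + n) * Module.finrank (ZMod p) k) :
    Nat.card V ≤ Nat.card W * Nat.card k ^ n := by
  have hk : Module.Finite (ZMod p) k := Module.Finite.of_finite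
  have hp : 1 ≤ p := (Fact.out : p.Prime).one_le
  rw [Module.natCard_eq_pow_finrank (K := ZMod p) (V := V),
    Module.natCard_eq_pow_finrank (K := ZMod p) (V := W),
    Module.natCard_eq_pow_finrank (K := ZMod p) (V := k), Nat.card_zmod, ← pow_mul, ← pow_add]
  refine Nat.pow_le_pow_right hp ?_
  have h' : Module.finrank (ZMod p) V + Module.finrank (ZMod p) k ≤
      (Module.finrank (ZMod p) W + Module.finrank (ZMod p) k * n) +
        Module.finrank (ZMod p) k := by
    rw [add_mul, one_mul] at h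
    rw [mul_comm (Module.finrank (ZMod p) k) n]
    omega
  exact Nat.le_of_add_le_add_right h'

end

end Fermat.Agent.TW.GW
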