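/-
TW-GW (task 256, GW-ASM): the cocycle dictionary between the TW cocycle spaces and the
cohomology of the Poitou–Tate datum, as a structure (the interface between GW-DICT and GW-ASM).

`Dict p rb χ S hsm` : for `adRep p rb χ` smooth for `datum S`,
* a class map `clsG : Z1S rb χ S → H¹(datum S; adRep p rb χ)`, surjective with kernel `B1 rb χ`;
* for every `v ∈ S` a class map `clsL v : Z1On D_v rb χ → H¹_v(adRep p rb χ)`, surjective with
  kernel `B1On D_v rb χ` (`D_v` the decomposition group of `primeLocalPlace v`), compatible with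
  restriction;
* `#H⁰_v(adRep p rb χ) = #H0On D_v rb χ`.
-/
import Mathlib
import Fermat.Agent.TW.GW.Defs
import Fermat.Agent.TW.GW.AsmAux

set_option autoImplicit false

namespace Fermat.Agent.TW.GW

open Fermat.Agent.S53 Fermat.Agent.PT Fermat.Agent.PT.Bridge ExtCitation

noncomputable section

variable {k : Type} [Field k]

/-- **The cocycle dictionary** for `(rb, χ, S)`. -/
structure Dict (p : ℕ) [Fact p.Prime] [Algebra (ZMod p) k] (rb : GQ →* Mat2 k) (χ : GQ →* kˣ)
    (S : Finset Nat.Primes) (hsm : (datum S).IsSmooth (adRep p rb χ)) where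
  /-- the global class map -/
  clsG : ↥(Z1S rb χ S) →ₗ[ZMod p] (datum S).H (adRep p rb χ) hsm 1
  surjG : Function.Surjective clsG
  kerG : ∀ c : ↥(Z1S rb χ S), clsG c = 0 ↔ (c : GQ → Mat2 k) ∈ B1 rb χ
  /-- the local class maps -/
  clsL : ∀ v : ↥S, ↥(Z1On ((primeLocalPlace v.1).decompositionSubgroup ℚ) rb χ) →ₗ[ZMod p]
    (datum S).Hv (adRep p rb χ) hsm v 1
  surjL : ∀ v : ↥S, Function.Surjective (clsL v)
  kerL : ∀ (v : ↥S) (c : ↥(Z1On ((primeLocalPlace v.1).decompositionSubgroup ℚ) rb χ)),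
    clsL v c = 0 ↔
      (c : ↥((primeLocalPlace v.1).decompositionSubgroup ℚ) → Mat2 k) ∈
        B1On ((primeLocalPlace v.1).decompositionSubgroup ℚ) rb χ
  /-- compatibility with restriction -/
  compat : ∀ (v : ↥S) (c : ↥(Z1S rb χ S)),
    ((datum S).resv (adRep p rb χ) hsm v).mapH 1 (clsG c) =
      clsL v ⟨resOn ((primeLocalPlace v.1).decompositionSubgroup ℚ) (c : GQ → Mat2 k),
        resOn_mem_Z1On _ c.2.1⟩
  /-- local invariants -/
  cardH0 : ∀ v : ↥S, Nat.card ((datum S).Hv (adRep p rb χ) hsm v 0) =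
    Nat.card (H0On ((primeLocalPlace v.1).decompositionSubgroup ℚ) rb χ)

end

end Fermat.Agent.TW.GW
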