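/-
TW-GW (task 313): the dictionary between the elementary cocycle spaces of `TW/Defs.lean` and the
cohomology of the Poitou–Tate datum `Bridge.datum S`, for the `χ`-twisted adjoint representation
`adRep p rb χ` over `𝔽_p`.

* `UnrData rb χ S` : `rb`, `χ` of finite level and unramified outside `S`;
* `clsG p S hu hsm : Z1S rb χ S →ₗ[𝔽_p] H¹(datum S; adRep p rb χ)`, surjective
  (`clsG_surjective`), kernel `B1 rb χ` (`clsG_eq_zero_iff`);
* `clsD p D hD : Z1On D rb χ →ₗ[𝔽_p] H¹(levD D; adRep p rb χ)`, surjective, kernel `B1On D rb χ`;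
  `clsL p S hsm v` its instance at a place of the datum, and `resv_clsG` (compatibility with
  restriction);
* `finrank_Hv_zero`, `card_Hv_zero`, `subsingleton_H_zero` : the `H⁰` dictionary;
* `dict`, `nonempty_dict` : the structure `Dict` of `DictSpec.lean`.
-/
import Mathlib
import Fermat.Agent.TW.GW.Defs
import Fermat.Agent.TW.GW.AsmAux
import Fermat.Agent.TW.GW.DictSpec
import Fermat.Agent.PT.Coh.Elem1
import Fermat.Agent.TW.ResHyp

set_option autoImplicit false

namespace Fermat.Agent.TW.GW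

open Fermat.Agent.S53 Fermat.Agent.PT Fermat.Agent.PT.Bridge ExtCitation

local notation "Qb" => AlgebraicClosure ℚ

noncomputable section

/-! ### The extension attached to a crossed homomorphism -/

section Ext

variable {R : Type} [CommRing R] {Γ : Type} [Group Γ] {M : Type} [AddCommGroup M] [Module R M]

/-- The extension of the trivial representation by `ρ` attached to a crossed homomorphism `c`:
`g • (m, a) = (ρ g m + a • c g, a)`. -/
def extRep (ρ : Representation R Γ M) (c : Γ → M) (hc : ∀ g h, c (g * h) = c g + ρ g (c h)) :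
    Representation R Γ (M × R) where
  toFun g :=
    { toFun := fun x => (ρ g x.1 + x.2 • c g, x.2)
      map_add' := fun x y => by
        refine Prod.ext ?_ rfl
        show ρ g (x.1 + y.1) + (x.2 + y.2) • c g = ρ g x.1 + x.2 • c g + (ρ g y.1 + y.2 • c g)
        rw [map_add, add_smul]
        abel
      map_smul' := fun a x => by
        refine Prod.ext ?_ rfl
        show ρ g (a • x.1) + (a • x.2) • c g = a • (ρ g x.1 + x.2 • c g)
        rw [map_smul, smul_add, smul_assoc] }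
  map_one' := by
    have h1 : c 1 = 0 := by
      have := hc 1 1
      rw [mul_one, map_one, Module.End.one_apply] at this
      exact left_eq_add.1 this
    refine LinearMap.ext fun x => Prod.ext ?_ rfl
    show ρ 1 x.1 + x.2 • c 1 = x.1
    rw [h1, smul_zero, add_zero, map_one, Module.End.one_apply]
  map_mul' g h := by
    refine LinearMap.ext fun x => Prod.ext ?_ rfl
    show ρ (g * h) x.1 + x.2 • c (g * h) = ρ g (ρ h x.1 + x.2 • c h) + x.2 • c g
    rw [hc, map_mul, Module.End.mul_apply, map_add, map_smul, smul_add]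
    abel

theorem extRep_apply (ρ : Representation R Γ M) (c : Γ → M)
    (hc : ∀ g h, c (g * h) = c g + ρ g (c h)) (g : Γ) (x : M × R) :
    extRep ρ c hc g x = (ρ g x.1 + x.2 • c g, x.2) := rfl

theorem extRep_eq_one (ρ : Representation R Γ M) (c : Γ → M)
    (hc : ∀ g h, c (g * h) = c g + ρ g (c h)) (g : Γ) (h1 : ρ g = 1) (h2 : c g = 0) :
    extRep ρ c hc g = 1 := by
  refine LinearMap.ext fun x => Prod.ext ?_ rfl
  show ρ g x.1 + x.2 • c g = x.1
  rw [h1, h2, smul_zero, add_zero, Module.End.one_apply]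

end Ext

variable {k : Type} [Field k] (p : ℕ) [Fact p.Prime] [Algebra (ZMod p) k]

/-! ### Unramified data and global cocycles -/

/-- `rb` and `χ` are of finite level and unramified outside `S`. -/
structure UnrData (rb : GQ →* Mat2 k) (χ : GQ →* kˣ) (S : Finset Nat.Primes) : Prop where
  hrb : FiniteLevel rb
  hchi : FiniteLevel χ
  hunr : ∀ q : Nat.Primes, q ∉ S → ∀ P : ValuationSubring Qb, P.LiesOverPrime (q : ℕ) →
      ∀ σ ∈ P.inertiaSubgroupIn ℚ, rb σ = 1 ∧ χ σ = 1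

theorem UnrData.one {rb : GQ →* Mat2 k} {S : Finset Nat.Primes} (hrb : FiniteLevel rb)
    (hunr : ∀ q : Nat.Primes, q ∉ S → ∀ P : ValuationSubring Qb, P.LiesOverPrime (q : ℕ) →
      ∀ σ ∈ P.inertiaSubgroupIn ℚ, rb σ = 1) : UnrData rb 1 S :=
  ⟨hrb, finiteLevel_one_hom, fun q hq P hP σ hσ => ⟨hunr q hq P hP σ hσ, rfl⟩⟩

theorem UnrData.det {rb : GQ →* Mat2 k} {S : Finset Nat.Primes} (hrb : FiniteLevel rb)
    (hunr : ∀ q : Nat.Primes, q ∉ S → ∀ P : ValuationSubring Qb, P.LiesOverPrime (q : ℕ) →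
      ∀ σ ∈ P.inertiaSubgroupIn ℚ, rb σ = 1) : UnrData rb (detChar rb) S :=
  ⟨hrb, finiteLevel_detChar hrb, fun q hq P hP σ hσ => ⟨hunr q hq P hP σ hσ, Units.ext (by
      rw [detChar_apply, hunr q hq P hP σ hσ, Matrix.det_one, Units.val_one])⟩⟩

theorem UnrData.isSmooth [Module.Finite (ZMod p) k] {rb : GQ →* Mat2 k} {χ : GQ →* kˣ}
    {S : Finset Nat.Primes} (hu : UnrData rb χ S) : (datum S).IsSmooth (adRep p rb χ) :=
  isSmooth_adRep p S hu.hrb hu.hchi hu.hunr

/-- **A cocycle unramified outside `S` is constant on the cosets of an `S`-level.** -/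
theorem exists_lev_of_unr [Module.Finite (ZMod p) k] {S : Finset Nat.Primes}
    {rb : GQ →* Mat2 k} {χ : GQ →* kˣ} (hu : UnrData rb χ S) {c : GQ → Mat2 k}
    (hc : c ∈ Z1S rb χ S) : ∃ N ∈ (levS S).lev, ∀ s ∈ N, c s = 0 := by
  have hfin : Module.Finite (ZMod p) (Mat2 k) := Module.Finite.matrix
  have hfin' : Module.Finite (ZMod p) (sl2 k) :=
    Module.Finite.of_injective ((sl2 k).subtype.restrictScalars (ZMod p))
      (sl2 k).injective_subtype
  obtain ⟨⟨hc1, hc2, hc3⟩, hcu⟩ := hc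
  set y : GQ → sl2 k := fun g => ⟨c g, hc1 g⟩ with hy
  have hyc : ∀ g h, y (g * h) = y g + adRep p rb χ g (y h) := fun g h =>
    Subtype.ext (hc2 g h)
  have hc0 : c 1 = 0 := Z1_map_one ⟨hc1, hc2, hc3⟩
  have hE : (levS S).IsSmooth (extRep (adRep p rb χ) y hyc) := by
    refine isSmooth_of_smooth_unramified S (Rep.of (extRep (adRep p rb χ) y hyc)) (fun m => ?_)
      (fun q hq P hP g hg => ?_)
    · obtain ⟨F, hF, hF'⟩ := hu.hrb
      obtain ⟨F', hF2, hF2'⟩ := hu.hchi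
      obtain ⟨F'', hF3, hF3'⟩ := hc3
      have := IntermediateField.finiteDimensional_sup F F'
      refine ⟨F ⊔ F' ⊔ F'', IntermediateField.finiteDimensional_sup (F ⊔ F') F'', fun s hs => ?_⟩
      have hs' := (IntermediateField.mem_fixingSubgroup_iff _ _).mp hs
      have h1 : rb s = 1 := hF' s fun x hx =>
        hs' x ((le_sup_left.trans le_sup_left : F ≤ F ⊔ F' ⊔ F'') hx)
      have h2 : χ s = 1 := hF2' s fun x hx =>
        hs' x ((le_sup_right.trans le_sup_left : F' ≤ F ⊔ F' ⊔ F'') hx)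
      have h3 : c s = 0 := by
        have := hF3' 1 s fun x hx => hs' x ((le_sup_right : F'' ≤ F ⊔ F' ⊔ F'') hx)
        rw [one_mul, hc0] at this
        exact this
      show extRep (adRep p rb χ) y hyc s m = m
      rw [extRep_eq_one (adRep p rb χ) y hyc s (adRep_eq_one_of p rb χ s h1 h2) (Subtype.ext h3)]
      rfl
    · exact extRep_eq_one (adRep p rb χ) y hyc g
        (adRep_eq_one_of p rb χ g (hu.hunr q hq P hP g hg).1 (hu.hunr q hq P hP g hg).2)
        (Subtype.ext (hcu q hq P hP g hg))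
  obtain ⟨N, hN, hfix⟩ := hE (0, 1)
  refine ⟨N, hN, fun s hs => ?_⟩
  have h1 := congrArg Prod.fst (hfix s hs)
  rw [extRep_apply] at h1
  have h2 : adRep p rb χ s 0 + (1 : ZMod p) • y s = 0 := h1
  rw [map_zero, zero_add, one_smul] at h2
  exact congrArg Subtype.val h2

/-! ### The global class map -/

/-- The crossed homomorphism `GQ → sl2 k` of a cocycle of `Z1S rb χ S`, as an element of the
level-constant crossed homomorphisms of the Poitou–Tate level system. -/
def toLev [Module.Finite (ZMod p) k] {S : Finset Nat.Primes} {rb : GQ →* Mat2 k}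
    {χ : GQ →* kˣ} (hu : UnrData rb χ S) :
    ↥(Z1S rb χ S) →ₗ[ZMod p] ↥(Elem1.Z1 (levS S) (adRep p rb χ)) where
  toFun c := ⟨fun σ => ⟨c.1 σ, c.2.1.1 σ⟩, by
    obtain ⟨N, hN, h0⟩ := exists_lev_of_unr p hu c.2
    refine (Elem1.isLevelConst_to₁_iff' _).mpr ⟨N, hN, fun g s hs => Subtype.ext ?_⟩
    show c.1 (g * s) = c.1 g
    rw [c.2.1.2.1, h0 s hs, map_zero, add_zero], fun g h => Subtype.ext (c.2.1.2.1 g h)⟩
  map_add' _ _ := rfl
  map_smul' _ _ := rfl

theorem toLev_apply [Module.Finite (ZMod p) k] {S : Finset Nat.Primes} {rb : GQ →* Mat2 k}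
    {χ : GQ →* kˣ} (hu : UnrData rb χ S) (c : ↥(Z1S rb χ S)) (σ : GQ) :
    (((toLev p hu c : ↥(Elem1.Z1 (levS S) (adRep p rb χ))) : GQ → sl2 k) σ : Mat2 k)
      = (c : GQ → Mat2 k) σ := rfl

/-- Every level-constant crossed homomorphism comes from a cocycle of `Z1S`. -/
theorem mem_Z1S_of_lev {S : Finset Nat.Primes} {rb : GQ →* Mat2 k} {χ : GQ →* kˣ}
    (y : ↥(Elem1.Z1 (levS S) (adRep p rb χ))) :
    (fun σ => ((y : GQ → sl2 k) σ : Mat2 k)) ∈ Z1S rb χ S := by
  obtain ⟨N, hN, hy⟩ := (Elem1.isLevelConst_to₁_iff' _).mp y.2.1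
  obtain ⟨L, hL, _, rfl⟩ := hN
  have hy1 : (y : GQ → sl2 k) 1 = 0 := by
    have := y.2.2 1 1
    rw [mul_one, map_one, Module.End.one_apply] at this
    exact left_eq_add.1 this
  refine ⟨⟨fun σ => (y.1 σ).2, fun g h => congrArg Subtype.val (y.2.2 g h), L, hL.1,
    fun g s hs => congrArg Subtype.val (hy g s ((IntermediateField.mem_fixingSubgroup_iff _ _).mpr
      hs))⟩, fun ℓ hℓ P hP σ hσ => ?_⟩
  have h1 := hy 1 σ (hL.2 ℓ hℓ P hP hσ)
  rw [one_mul, hy1] at h1
  exact congrArg Subtype.val h1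

theorem toLev_bijective [Module.Finite (ZMod p) k] {S : Finset Nat.Primes} {rb : GQ →* Mat2 k}
    {χ : GQ →* kˣ} (hu : UnrData rb χ S) : Function.Bijective (toLev p hu) := by
  constructor
  · intro c c' h
    apply Subtype.ext
    funext σ
    have := congrFun (congrArg Subtype.val h) σ
    exact congrArg Subtype.val this
  · intro y
    exact ⟨⟨_, mem_Z1S_of_lev p y⟩, Subtype.ext (funext fun σ => Subtype.ext rfl)⟩

/-- **The global class map** `Z1S rb χ S → H¹(datum S; adRep p rb χ)`. -/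
def clsG [Module.Finite (ZMod p) k] (S : Finset Nat.Primes) {rb : GQ →* Mat2 k}
    {χ : GQ →* kˣ} (hu : UnrData rb χ S) (hsm : (datum S).IsSmooth (adRep p rb χ)) :
    ↥(Z1S rb χ S) →ₗ[ZMod p] (datum S).H (adRep p rb χ) hsm 1 :=
  (Elem1.cls (levS S) hsm).comp (toLev p hu)

theorem clsG_surjective [Module.Finite (ZMod p) k] (S : Finset Nat.Primes)
    {rb : GQ →* Mat2 k} {χ : GQ →* kˣ} (hu : UnrData rb χ S)
    (hsm : (datum S).IsSmooth (adRep p rb χ)) : Function.Surjective (clsG p S hu hsm) :=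
  (Elem1.cls_surjective (levS S) hsm).comp (toLev_bijective p hu).2

/-- The elementary coboundaries are the coboundaries of `adRep`. -/
theorem mem_B1_iff {rb : GQ →* Mat2 k} {χ : GQ →* kˣ} (y : GQ → sl2 k) :
    y ∈ Elem1.B1 (adRep p rb χ) ↔ (fun σ => (y σ : Mat2 k)) ∈ B1 rb χ := by
  rw [Elem1.mem_B1, mem_B1]
  constructor
  · rintro ⟨m, hm⟩
    exact ⟨m.1, m.2, fun σ => congrArg Subtype.val (hm σ)⟩
  · rintro ⟨X, hX, h⟩
    exact ⟨⟨X, hX⟩, fun σ => Subtype.ext (h σ)⟩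

/-- The kernel of the global class map is `B1 rb χ`. -/
theorem clsG_eq_zero_iff [Module.Finite (ZMod p) k] (S : Finset Nat.Primes)
    {rb : GQ →* Mat2 k} {χ : GQ →* kˣ} (hu : UnrData rb χ S)
    (hsm : (datum S).IsSmooth (adRep p rb χ)) (c : ↥(Z1S rb χ S)) :
    clsG p S hu hsm c = 0 ↔ (c : GQ → Mat2 k) ∈ B1 rb χ := by
  show Elem1.cls (levS S) hsm (toLev p hu c) = 0 ↔ _
  rw [Elem1.cls_eq_zero_iff, mem_B1_iff]
  rfl

/-- Two cocycles have the same class iff they differ by a coboundary. -/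
theorem clsG_eq_iff [Module.Finite (ZMod p) k] (S : Finset Nat.Primes)
    {rb : GQ →* Mat2 k} {χ : GQ →* kˣ} (hu : UnrData rb χ S)
    (hsm : (datum S).IsSmooth (adRep p rb χ)) (c c' : ↥(Z1S rb χ S)) :
    clsG p S hu hsm c = clsG p S hu hsm c' ↔ (c : GQ → Mat2 k) - c' ∈ B1 rb χ := by
  rw [← sub_eq_zero, ← map_sub, clsG_eq_zero_iff]
  rfl

/-! ### The local class maps -/

/-- The crossed homomorphism `D → sl2 k` of a cocycle of `Z1On D rb χ`. -/
def toLevOn (D : Subgroup GQ) {rb : GQ →* Mat2 k} {χ : GQ →* kˣ} :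
    ↥(Z1On D rb χ) →ₗ[ZMod p] ↥(Elem1.Z1 (levD D) ((adRep p rb χ).comp D.subtype)) where
  toFun c := ⟨fun σ => ⟨c.1 σ, c.2.1 σ⟩, by
    obtain ⟨F, hF, h⟩ := c.2.2.2
    refine (isLevelConst_levD_iff D _).mpr ⟨F, hF, fun g s hs => Subtype.ext ?_⟩
    exact h g s ((IntermediateField.mem_fixingSubgroup_iff _ _).mp hs),
    fun g h => Subtype.ext (c.2.2.1 g h)⟩
  map_add' _ _ := rfl
  map_smul' _ _ := rfl

theorem toLevOn_apply (D : Subgroup GQ) {rb : GQ →* Mat2 k} {χ : GQ →* kˣ}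
    (c : ↥(Z1On D rb χ)) (σ : D) :
    (((toLevOn p D c : ↥(Elem1.Z1 (levD D) ((adRep p rb χ).comp D.subtype))) : D → sl2 k) σ :
      Mat2 k) = (c : D → Mat2 k) σ := rfl

theorem mem_Z1On_of_lev (D : Subgroup GQ) {rb : GQ →* Mat2 k} {χ : GQ →* kˣ}
    (y : ↥(Elem1.Z1 (levD D) ((adRep p rb χ).comp D.subtype))) :
    (fun σ => ((y : D → sl2 k) σ : Mat2 k)) ∈ Z1On D rb χ := by
  obtain ⟨F, hF, hy⟩ := (isLevelConst_levD_iff D _).mp y.2.1
  exact ⟨fun σ => (y.1 σ).2, fun g h => congrArg Subtype.val (y.2.2 g h), F, hF,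
    fun g s hs => congrArg Subtype.val (hy g s ((IntermediateField.mem_fixingSubgroup_iff _ _).mpr
      hs))⟩

theorem toLevOn_bijective (D : Subgroup GQ) {rb : GQ →* Mat2 k} {χ : GQ →* kˣ} :
    Function.Bijective (toLevOn p D (rb := rb) (χ := χ)) := by
  constructor
  · intro c c' h
    apply Subtype.ext
    funext σ
    have := congrFun (congrArg Subtype.val h) σ
    exact congrArg Subtype.val this
  · intro y
    exact ⟨⟨_, mem_Z1On_of_lev p D y⟩, Subtype.ext (funext fun σ => Subtype.ext rfl)⟩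

/-- **The local class map** `Z1On D rb χ → H¹(D; adRep p rb χ)` (all finite levels on `D`). -/
def clsD (D : Subgroup GQ) {rb : GQ →* Mat2 k} {χ : GQ →* kˣ}
    (hD : (levD D).IsSmooth ((adRep p rb χ).comp D.subtype)) :
    ↥(Z1On D rb χ) →ₗ[ZMod p] ((levD D).cx ((adRep p rb χ).comp D.subtype) hD).H 1 :=
  (Elem1.cls (levD D) hD).comp (toLevOn p D)

theorem clsD_surjective (D : Subgroup GQ) {rb : GQ →* Mat2 k} {χ : GQ →* kˣ}
    (hD : (levD D).IsSmooth ((adRep p rb χ).comp D.subtype)) :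
    Function.Surjective (clsD p D hD) :=
  (Elem1.cls_surjective (levD D) hD).comp (toLevOn_bijective p D).2

theorem mem_B1On_iff (D : Subgroup GQ) {rb : GQ →* Mat2 k} {χ : GQ →* kˣ} (y : D → sl2 k) :
    y ∈ Elem1.B1 ((adRep p rb χ).comp D.subtype) ↔ (fun σ => (y σ : Mat2 k)) ∈ B1On D rb χ := by
  rw [Elem1.mem_B1, mem_B1On]
  constructor
  · rintro ⟨m, hm⟩
    exact ⟨m.1, m.2, fun σ => congrArg Subtype.val (hm σ)⟩
  · rintro ⟨X, hX, h⟩
    exact ⟨⟨X, hX⟩, fun σ => Subtype.ext (h σ)⟩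

/-- The kernel of the local class map is `B1On D rb χ`. -/
theorem clsD_eq_zero_iff (D : Subgroup GQ) {rb : GQ →* Mat2 k} {χ : GQ →* kˣ}
    (hD : (levD D).IsSmooth ((adRep p rb χ).comp D.subtype)) (c : ↥(Z1On D rb χ)) :
    clsD p D hD c = 0 ↔ (c : D → Mat2 k) ∈ B1On D rb χ := by
  show Elem1.cls (levD D) hD (toLevOn p D c) = 0 ↔ _
  rw [Elem1.cls_eq_zero_iff, mem_B1On_iff]
  rfl

theorem clsD_eq_iff (D : Subgroup GQ) {rb : GQ →* Mat2 k} {χ : GQ →* kˣ}
    (hD : (levD D).IsSmooth ((adRep p rb χ).comp D.subtype)) (c c' : ↥(Z1On D rb χ)) :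
    clsD p D hD c = clsD p D hD c' ↔ (c : D → Mat2 k) - c' ∈ B1On D rb χ := by
  rw [← sub_eq_zero, ← map_sub, clsD_eq_zero_iff]
  rfl

/-- **The local class map at a place of the datum.** -/
def clsL (S : Finset Nat.Primes) {rb : GQ →* Mat2 k} {χ : GQ →* kˣ}
    (hsm : (datum S).IsSmooth (adRep p rb χ)) (v : ↥S) :
    ↥(Z1On ((primeLocalPlace v.1).decompositionSubgroup ℚ) rb χ) →ₗ[ZMod p]
      (datum S).Hv (adRep p rb χ) hsm v 1 :=
  clsD p ((primeLocalPlace v.1).decompositionSubgroup ℚ) ((datum S).isSmooth_resRep hsm v)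

theorem clsL_surjective (S : Finset Nat.Primes) {rb : GQ →* Mat2 k} {χ : GQ →* kˣ}
    (hsm : (datum S).IsSmooth (adRep p rb χ)) (v : ↥S) :
    Function.Surjective (clsL p S hsm v) :=
  clsD_surjective p _ _

theorem clsL_eq_zero_iff (S : Finset Nat.Primes) {rb : GQ →* Mat2 k} {χ : GQ →* kˣ}
    (hsm : (datum S).IsSmooth (adRep p rb χ)) (v : ↥S)
    (c : ↥(Z1On ((primeLocalPlace v.1).decompositionSubgroup ℚ) rb χ)) :
    clsL p S hsm v c = 0 ↔
      (c : ↥((primeLocalPlace v.1).decompositionSubgroup ℚ) → Mat2 k) ∈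
        B1On ((primeLocalPlace v.1).decompositionSubgroup ℚ) rb χ :=
  clsD_eq_zero_iff p _ _ c

theorem clsL_eq_iff (S : Finset Nat.Primes) {rb : GQ →* Mat2 k} {χ : GQ →* kˣ}
    (hsm : (datum S).IsSmooth (adRep p rb χ)) (v : ↥S)
    (c c' : ↥(Z1On ((primeLocalPlace v.1).decompositionSubgroup ℚ) rb χ)) :
    clsL p S hsm v c = clsL p S hsm v c' ↔
      (c : ↥((primeLocalPlace v.1).decompositionSubgroup ℚ) → Mat2 k) - c' ∈
        B1On ((primeLocalPlace v.1).decompositionSubgroup ℚ) rb χ :=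
  clsD_eq_iff p _ _ c c'

/-- The restriction of a cocycle of `Z1S` to a decomposition group. -/
def resZ {rb : GQ →* Mat2 k} {χ : GQ →* kˣ} {S : Finset Nat.Primes} (D : Subgroup GQ)
    (c : ↥(Z1S rb χ S)) : ↥(Z1On D rb χ) :=
  ⟨resOn D c.1, resOn_mem_Z1On D c.2.1⟩

theorem resZ_coe {rb : GQ →* Mat2 k} {χ : GQ →* kˣ} {S : Finset Nat.Primes} (D : Subgroup GQ)
    (c : ↥(Z1S rb χ S)) : (resZ D c : D → Mat2 k) = resOn D (c : GQ → Mat2 k) := rfl

/-- **Compatibility of the class maps with restriction to the places of the datum.** -/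
theorem resv_clsG [Module.Finite (ZMod p) k] (S : Finset Nat.Primes) {rb : GQ →* Mat2 k}
    {χ : GQ →* kˣ} (hu : UnrData rb χ S) (hsm : (datum S).IsSmooth (adRep p rb χ)) (v : ↥S)
    (c : ↥(Z1S rb χ S)) :
    ((datum S).resv (adRep p rb χ) hsm v).mapH 1 (clsG p S hu hsm c) =
      clsL p S hsm v (resZ ((primeLocalPlace v.1).decompositionSubgroup ℚ) c) := rfl

/-! ### The `H⁰` dictionary -/

/-- The invariants of `adRep` on a subgroup `D` are `H0On D rb χ`. -/
def h0Equiv (D : Subgroup GQ) (rb : GQ →* Mat2 k) (χ : GQ →* kˣ) :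
    ↥(H0On D rb χ) ≃ₗ[ZMod p]
      ↥(Representation.invariants ((adRep p rb χ).comp D.subtype)) where
  toFun X := ⟨⟨X.1, X.2.1⟩, fun g => Subtype.ext (X.2.2 g g.2)⟩
  invFun Y := ⟨Y.1.1, Y.1.2, fun σ hσ => congrArg Subtype.val (Y.2 ⟨σ, hσ⟩)⟩
  left_inv _ := rfl
  right_inv _ := rfl
  map_add' _ _ := rfl
  map_smul' _ _ := rfl

/-- `h⁰` of a subgroup `D` with coefficients in `adRep` is `dim H0On`. -/
theorem finrank_H0_levD (D : Subgroup GQ) {rb : GQ →* Mat2 k} {χ : GQ →* kˣ}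
    (hD : (levD D).IsSmooth ((adRep p rb χ).comp D.subtype)) :
    Module.finrank (ZMod p) (((levD D).cx ((adRep p rb χ).comp D.subtype) hD).H 0) =
      Module.finrank (ZMod p) ↥(H0On D rb χ) := by
  rw [Rex.finrank_H0]
  exact (h0Equiv p D rb χ).finrank_eq.symm

theorem card_H0_levD (D : Subgroup GQ) {rb : GQ →* Mat2 k} {χ : GQ →* kˣ}
    (hD : (levD D).IsSmooth ((adRep p rb χ).comp D.subtype)) :
    Nat.card (((levD D).cx ((adRep p rb χ).comp D.subtype) hD).H 0) =
      Nat.card ↥(H0On D rb χ) :=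
  (Nat.card_congr ((h0Equiv p D rb χ).toEquiv.trans
    (LinearEquiv.ofBijective (Rex.toH0 (levD D) hD) (Rex.toH0_bijective (levD D) hD)).toEquiv)).symm

/-- **`h⁰_v(adRep) = dim H0On D_v`** at a place of the datum. -/
theorem finrank_Hv_zero (S : Finset Nat.Primes) {rb : GQ →* Mat2 k} {χ : GQ →* kˣ}
    (hsm : (datum S).IsSmooth (adRep p rb χ)) (v : ↥S) :
    Module.finrank (ZMod p) ((datum S).Hv (adRep p rb χ) hsm v 0) =
      Module.finrank (ZMod p) ↥(H0On ((primeLocalPlace v.1).decompositionSubgroup ℚ) rb χ) :=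
  finrank_H0_levD p _ _

theorem card_Hv_zero (S : Finset Nat.Primes) {rb : GQ →* Mat2 k} {χ : GQ →* kˣ}
    (hsm : (datum S).IsSmooth (adRep p rb χ)) (v : ↥S) :
    Nat.card ((datum S).Hv (adRep p rb χ) hsm v 0) =
      Nat.card ↥(H0On ((primeLocalPlace v.1).decompositionSubgroup ℚ) rb χ) :=
  card_H0_levD p _ _

/-- The global invariants of `adRep` are `H0On ⊤`. -/
def h0EquivTop (rb : GQ →* Mat2 k) (χ : GQ →* kˣ) :
    ↥(H0On ⊤ rb χ) ≃ₗ[ZMod p] ↥(Representation.invariants (adRep p rb χ)) where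
  toFun X := ⟨⟨X.1, X.2.1⟩, fun g => Subtype.ext (X.2.2 g (Subgroup.mem_top g))⟩
  invFun Y := ⟨Y.1.1, Y.1.2, fun σ _ => congrArg Subtype.val (Y.2 σ)⟩
  left_inv _ := rfl
  right_inv _ := rfl
  map_add' _ _ := rfl
  map_smul' _ _ := rfl

theorem finrank_H_zero (S : Finset Nat.Primes) {rb : GQ →* Mat2 k} {χ : GQ →* kˣ}
    (hsm : (datum S).IsSmooth (adRep p rb χ)) :
    Module.finrank (ZMod p) ((datum S).H (adRep p rb χ) hsm 0) =
      Module.finrank (ZMod p) ↥(H0On ⊤ rb χ) := by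
  rw [Rex.finrank_H0]
  exact (h0EquivTop p rb χ).finrank_eq.symm

/-- **`H⁰(G_ℚ; ad⁰) = 0`** under `ResidualHyp` (Schur's lemma), `p ≠ 2`. -/
theorem subsingleton_H_zero (hp2 : p ≠ 2) (S : Finset Nat.Primes) {rb : GQ →* Mat2 k}
    (h : ResidualHyp rb p) (hsm : (datum S).IsSmooth (adRep p rb 1)) :
    Subsingleton ((datum S).H (adRep p rb 1) hsm 0) := by
  have hinv : Subsingleton ↥(Representation.invariants (adRep p rb 1)) := by
    refine ⟨fun Y Y' => ?_⟩
    have key : ∀ Z : ↥(Representation.invariants (adRep p rb 1)), Z = 0 := by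
      intro Z
      apply Subtype.ext
      apply Subtype.ext
      refine ResHyp.eq_zero_of_commute rb p hp2 h ⊤ (Or.inl Subgroup.index_top) Z.1.1 Z.1.2
        fun σ _ => ?_
      have h1 : adAct rb 1 σ (Z.1 : Mat2 k) = Z.1 := congrArg Subtype.val (Z.2 σ)
      rw [adAct_apply, one_hom_apply_coe, one_smul] at h1
      calc rb σ * (Z.1 : Mat2 k) = rb σ * (Z.1 : Mat2 k) * (rb σ⁻¹ * rb σ) := by
            rw [rb_inv_mul_rb, mul_one]
        _ = rb σ * (Z.1 : Mat2 k) * rb σ⁻¹ * rb σ := by simp only [mul_assoc]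
        _ = (Z.1 : Mat2 k) * rb σ := by rw [h1]
    rw [key Y, key Y']
  exact (LinearEquiv.ofBijective (Rex.toH0 (levS S) hsm)
    (Rex.toH0_bijective (levS S) hsm)).symm.toEquiv.subsingleton

/-- **(D3″)** `h⁰(G_ℚ; ad⁰) = 0` under `ResidualHyp`, `p ≠ 2`. -/
theorem finrank_H_zero_adRep_one (hp2 : p ≠ 2) (S : Finset Nat.Primes) {rb : GQ →* Mat2 k}
    (h : ResidualHyp rb p) (hsm : (datum S).IsSmooth (adRep p rb 1)) :
    Module.finrank (ZMod p) ((datum S).H (adRep p rb 1) hsm 0) = 0 := by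
  have := subsingleton_H_zero p hp2 S h hsm
  exact Module.finrank_zero_of_subsingleton

/-! ### The dictionary structure of `DictSpec.lean` -/

/-- **The cocycle dictionary** for `(rb, χ, S)`: all fields of `Dict`. -/
def dict [Module.Finite (ZMod p) k] (S : Finset Nat.Primes) {rb : GQ →* Mat2 k}
    {χ : GQ →* kˣ} (hu : UnrData rb χ S) (hsm : (datum S).IsSmooth (adRep p rb χ)) :
    Dict p rb χ S hsm where
  clsG := clsG p S hu hsm
  surjG := clsG_surjective p S hu hsm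
  kerG := clsG_eq_zero_iff p S hu hsm
  clsL := clsL p S hsm
  surjL := clsL_surjective p S hsm
  kerL := clsL_eq_zero_iff p S hsm
  compat := fun v c => resv_clsG p S hu hsm v c
  cardH0 := card_Hv_zero p S hsm

theorem nonempty_dict [Module.Finite (ZMod p) k] (S : Finset Nat.Primes) {rb : GQ →* Mat2 k}
    {χ : GQ →* kˣ} (hu : UnrData rb χ S) (hsm : (datum S).IsSmooth (adRep p rb χ)) :
    Nonempty (Dict p rb χ S hsm) := ⟨dict p S hu hsm⟩

/-- the dictionary for `ad⁰ = adRep p rb 1` -/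
theorem nonempty_dict_one [Module.Finite (ZMod p) k] (S : Finset Nat.Primes)
    {rb : GQ →* Mat2 k} (hrb : FiniteLevel rb)
    (hunr : ∀ q : Nat.Primes, q ∉ S → ∀ P : ValuationSubring Qb, P.LiesOverPrime (q : ℕ) →
      ∀ σ ∈ P.inertiaSubgroupIn ℚ, rb σ = 1)
    (hsm : (datum S).IsSmooth (adRep p rb 1)) : Nonempty (Dict p rb 1 S hsm) :=
  nonempty_dict p S (UnrData.one hrb hunr) hsm

/-- the dictionary for `ad⁰(1) = adRep p rb (detChar rb)` -/
theorem nonempty_dict_det [Module.Finite (ZMod p) k] (S : Finset Nat.Primes)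
    {rb : GQ →* Mat2 k} (hrb : FiniteLevel rb)
    (hunr : ∀ q : Nat.Primes, q ∉ S → ∀ P : ValuationSubring Qb, P.LiesOverPrime (q : ℕ) →
      ∀ σ ∈ P.inertiaSubgroupIn ℚ, rb σ = 1)
    (hsm : (datum S).IsSmooth (adRep p rb (detChar rb))) :
    Nonempty (Dict p rb (detChar rb) S hsm) :=
  nonempty_dict p S (UnrData.det hrb hunr) hsm

end

end Fermat.Agent.TW.GW
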