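/-
TW-GW (task 256, GW-ASM): the Greenberg–Wiles count from the cocycle dictionary.

`card_le_of_dict` : for a finite set `S` of primes, the dictionaries `Dict` for `ad⁰` and `ad⁰(1)`,
the Poitou–Tate package `GWHyp`, perfectness of the trace pairing, `h⁰(ad⁰) = 0`, the Euler
characteristic bound `h²(ad⁰(1)) + [k:𝔽_p] ≤ h¹(ad⁰(1))` and a family of local conditions `ℒ_v`
with `LocBound rb P_v δ_v ℒ_v`, `Σ δ_v ≤ 1 + n`:
`#𝒮 · #B¹(ad⁰(1)) ≤ #B¹(ad⁰) · #k ^ n · #A` for every space `𝒮` of cocycles satisfying the local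
conditions and every set `A` containing the cocycles of `ad⁰(1)` which are locally trivial at the
places where `ℒ_v` is everything.
-/
import Mathlib
import Fermat.Agent.TW.GW.DictSpec
import Fermat.Agent.PT.Coh.GWPerf

set_option autoImplicit false

namespace Fermat.Agent.TW.GW

open Fermat.Agent.S53 Fermat.Agent.PT Fermat.Agent.PT.Bridge ExtCitation Module

noncomputable section

variable {k : Type} [Field k]

section Local

variable (p : ℕ) [Fact p.Prime] [Algebra (ZMod p) k] {rb : GQ →* Mat2 k} {χ : GQ →* kˣ}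
  {S : Finset Nat.Primes} {hsm : (datum S).IsSmooth (adRep p rb χ)}

/-- The image in `H¹_v` of a space of local cocycles. -/
def locImage (d : Dict p rb χ S hsm) (v : ↥S)
    (ℒ : Submodule k (↥((primeLocalPlace v.1).decompositionSubgroup ℚ) → Mat2 k)) :
    Submodule (ZMod p) ((datum S).Hv (adRep p rb χ) hsm v 1) :=
  Submodule.map (d.clsL v)
    ((ℒ.comap (Z1On ((primeLocalPlace v.1).decompositionSubgroup ℚ) rb χ).subtype).restrictScalars
      (ZMod p))

theorem mem_locImage (d : Dict p rb χ S hsm) (v : ↥S)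
    (ℒ : Submodule k (↥((primeLocalPlace v.1).decompositionSubgroup ℚ) → Mat2 k))
    (x : (datum S).Hv (adRep p rb χ) hsm v 1) :
    x ∈ locImage p d v ℒ ↔
      ∃ c : ↥(Z1On ((primeLocalPlace v.1).decompositionSubgroup ℚ) rb χ),
        (c : ↥((primeLocalPlace v.1).decompositionSubgroup ℚ) → Mat2 k) ∈ ℒ ∧ d.clsL v c = x :=
  Iff.rfl

/-- The image of all cocycles is everything. -/
theorem locImage_Z1On (d : Dict p rb χ S hsm) (v : ↥S) :
    locImage p d v (Z1On ((primeLocalPlace v.1).decompositionSubgroup ℚ) rb χ) = ⊤ := by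
  refine eq_top_iff.2 fun x _ => ?_
  obtain ⟨c, rfl⟩ := d.surjL v x
  exact (mem_locImage p d v _ _).2 ⟨c, c.2, rfl⟩

/-- **(D5)** The local bound in `H¹_v`: a local condition with `LocBound rb P_v δ ℒ` has image of
`𝔽_p`-dimension at most `h⁰_v + δ · [k : 𝔽_p]`. -/
theorem finrank_locImage_le [Finite k] {hsm1 : (datum S).IsSmooth (adRep p rb 1)}
    (d : Dict p rb 1 S hsm1) (v : ↥S)
    (ℒ : Submodule k (↥((primeLocalPlace v.1).decompositionSubgroup ℚ) → Mat2 k)) (δ : ℕ)
    (hℒ : LocBound rb (primeLocalPlace v.1) δ ℒ)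
    [Module.Finite (ZMod p) ((datum S).Hv (adRep p rb 1) hsm1 v 0)]
    [Module.Finite (ZMod p) ((datum S).Hv (adRep p rb 1) hsm1 v 1)] :
    finrank (ZMod p) (locImage p d v ℒ) ≤
      finrank (ZMod p) ((datum S).Hv (adRep p rb 1) hsm1 v 0) + δ * finrank (ZMod p) k := by
  have hp : 1 < p := (Fact.out : p.Prime).one_lt
  have hk : Module.Finite (ZMod p) k := Module.Finite.of_finite
  have hfinℒ : Finite ℒ := hℒ.finite
  have hfinℒ' : Finite ((ℒ : Set (↥((primeLocalPlace v.1).decompositionSubgroup ℚ) → Mat2 k))) :=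
    hfinℒ
  have hBZ : B1On ((primeLocalPlace v.1).decompositionSubgroup ℚ) rb 1 ≤
      Z1On ((primeLocalPlace v.1).decompositionSubgroup ℚ) rb 1 := hℒ.B1_le.trans hℒ.le_Z1
  have hfinB : Finite (B1On ((primeLocalPlace v.1).decompositionSubgroup ℚ) rb 1) :=
    Finite.of_injective (fun b : B1On ((primeLocalPlace v.1).decompositionSubgroup ℚ) rb 1 =>
      (⟨b.1, hℒ.B1_le b.2⟩ : ℒ)) fun a b hab =>
        Subtype.ext (Subtype.mk.inj hab)
  have h1 : Nat.card (B1On ((primeLocalPlace v.1).decompositionSubgroup ℚ) rb 1) *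
      Nat.card ((locImage p d v ℒ : Set ((datum S).Hv (adRep p rb 1) hsm1 v 1))) ≤
      Nat.card ((ℒ : Set (↥((primeLocalPlace v.1).decompositionSubgroup ℚ) → Mat2 k))) := by
    refine card_mul_le_of_cls (Z1On ((primeLocalPlace v.1).decompositionSubgroup ℚ) rb 1)
      (B1On ((primeLocalPlace v.1).decompositionSubgroup ℚ) rb 1) hBZ
      (d.clsL v).toAddMonoidHom (d.surjL v) (d.kerL v) _ _ ?_
    intro z hz
    obtain ⟨c, hc, hcz⟩ := (mem_locImage p d v ℒ _).1 hz
    have h2 : d.clsL v (z - c) = 0 := by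
      rw [map_sub, hcz]
      exact sub_self _
    have h3 := hℒ.B1_le ((d.kerL v (z - c)).1 h2)
    have h4 : (z : ↥((primeLocalPlace v.1).decompositionSubgroup ℚ) → Mat2 k) =
        ((z - c : ↥(Z1On ((primeLocalPlace v.1).decompositionSubgroup ℚ) rb 1)) :
          ↥((primeLocalPlace v.1).decompositionSubgroup ℚ) → Mat2 k) + c := by
      rw [Submodule.coe_sub, sub_add_cancel]
    show (z : ↥((primeLocalPlace v.1).decompositionSubgroup ℚ) → Mat2 k) ∈ ℒ
    rw [h4]
    exact add_mem h3 hc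
  have h2 := hℒ.card_le
  have hBpos : 0 < Nat.card (B1On ((primeLocalPlace v.1).decompositionSubgroup ℚ) rb 1) :=
    Nat.card_pos
  have h3 : Nat.card (locImage p d v ℒ) ≤
      Nat.card ((datum S).Hv (adRep p rb 1) hsm1 v 0) * Nat.card k ^ δ := by
    rw [d.cardH0 v]
    refine Nat.le_of_mul_le_mul_left ?_ hBpos
    calc Nat.card (B1On ((primeLocalPlace v.1).decompositionSubgroup ℚ) rb 1) *
          Nat.card (locImage p d v ℒ) ≤ Nat.card ℒ := h1
      _ ≤ _ := h2
      _ = _ := by ring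
  rw [Module.natCard_eq_pow_finrank (K := ZMod p) (V := locImage p d v ℒ),
    Module.natCard_eq_pow_finrank (K := ZMod p)
      (V := (datum S).Hv (adRep p rb 1) hsm1 v 0),
    Module.natCard_eq_pow_finrank (K := ZMod p) (V := k), Nat.card_zmod, ← pow_mul, ← pow_add,
    mul_comm (finrank (ZMod p) k) δ] at h3
  exact (Nat.pow_le_pow_iff_right hp).1 h3

end Local

section Global

variable (p : ℕ) [Fact p.Prime] [Algebra (ZMod p) k]

set_option maxHeartbeats 1000000 in
/-- **The Greenberg–Wiles count from the dictionary.** -/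
theorem card_le_of_dict [Finite k] {rb : GQ →* Mat2 k} (S : Finset Nat.Primes)
    (hpS : pPrime p ∈ S)
    (hB : (datum S).IsSmooth (adRep p rb 1))
    (hA : (datum S).IsSmooth (adRep p rb (detChar rb)))
    {tr : (datum S).Hc (Base.chiRep (cycloChar p)) (Base.isSmooth_T p S hpS) 3 →ₗ[ZMod p] ZMod p}
    (H : LocDatum.GWHyp (datum S) (cycloChar p) (Base.isSmooth_T p S hpS) tr)
    (hβ : ∀ g X Y, trPair p (adRep p rb (detChar rb) g X) (adRep p rb 1 g Y) =
      Base.chiRep (cycloChar p) g (trPair p X Y))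
    (hperf : Function.Bijective (trPair p : sl2 k →ₗ[ZMod p] sl2 k →ₗ[ZMod p] ZMod p))
    (dB : Dict p rb 1 S hB) (dA : Dict p rb (detChar rb) S hA)
    (h0 : finrank (ZMod p) ((datum S).H (adRep p rb 1) hB 0) = 0)
    (hEC : finrank (ZMod p) ((datum S).H (adRep p rb (detChar rb)) hA 2) + finrank (ZMod p) k ≤
      finrank (ZMod p) ((datum S).H (adRep p rb (detChar rb)) hA 1))
    (ℒ : ∀ v : ↥S, Submodule k (↥((primeLocalPlace v.1).decompositionSubgroup ℚ) → Mat2 k))
    (δ : ↥S → ℕ) (hℒ : ∀ v : ↥S, LocBound rb (primeLocalPlace v.1) (δ v) (ℒ v))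
    (n : ℕ) (hn : ∑ v, δ v ≤ 1 + n)
    (𝒮 : Submodule k (GQ → Mat2 k)) (h𝒮 : 𝒮 ≤ Z1S rb 1 S)
    (h𝒮loc : ∀ c ∈ 𝒮, ∀ v : ↥S,
      resOn ((primeLocalPlace v.1).decompositionSubgroup ℚ) c ∈ ℒ v)
    (Qs : Set ↥S)
    (hQs : ∀ v ∈ Qs, ℒ v = Z1On ((primeLocalPlace v.1).decompositionSubgroup ℚ) rb 1)
    (hBZ : B1 rb (detChar rb) ≤ Z1S rb (detChar rb) S)
    (A : Set (GQ → Mat2 k)) [Finite A]
    (hAset : ∀ d ∈ Z1S rb (detChar rb) S,
      (∀ v ∈ Qs, resOn ((primeLocalPlace v.1).decompositionSubgroup ℚ) d ∈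
        B1On ((primeLocalPlace v.1).decompositionSubgroup ℚ) rb (detChar rb)) → d ∈ A) :
    Finite 𝒮 ∧ Nat.card 𝒮 * Nat.card (B1 rb (detChar rb)) ≤
      Nat.card (B1 rb 1) * (Nat.card k ^ n * Nat.card A) := by
  classical
  have hne : Nonempty (datum S).ι := ⟨⟨pPrime p, hpS⟩⟩
  have hkfin : Module.Finite (ZMod p) k := Module.Finite.of_finite
  have hslfin : Module.Finite (ZMod p) (sl2 k) := Module.Finite.of_finite
  have hH1B : Module.Finite (ZMod p) ((datum S).H (adRep p rb 1) hB 1) :=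
    H.count.fin _ hB 1 (by norm_num)
  have hH1A : Module.Finite (ZMod p) ((datum S).H (adRep p rb (detChar rb)) hA 1) :=
    H.count.fin _ hA 1 (by norm_num)
  have hHv0 : ∀ v, Module.Finite (ZMod p) ((datum S).Hv (adRep p rb 1) hB v 0) :=
    fun v => H.count.finv _ hB v 0 (by norm_num)
  have hHv1 : ∀ v, Module.Finite (ZMod p) ((datum S).Hv (adRep p rb 1) hB v 1) :=
    fun v => H.count.finv _ hB v 1 (by norm_num)
  -- the local conditions in cohomology
  let L : ∀ v, Submodule (ZMod p) ((datum S).Hv (adRep p rb 1) hB v 1) :=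
    fun v => locImage p dB v (ℒ v)
  have hloc : ∀ v, finrank (ZMod p) (L v) ≤
      finrank (ZMod p) ((datum S).Hv (adRep p rb 1) hB v 0) + δ v * finrank (ZMod p) k :=
    fun v => finrank_locImage_le p dB v (ℒ v) (δ v) (hℒ v)
  -- the Greenberg–Wiles inequality
  have hgw := H.gw_ineq hA hB (trPair p) hβ hperf L h0 (finrank (ZMod p) k) hEC
    (fun v => δ v * finrank (ZMod p) k) hloc
  have hsum : ∑ v, δ v * finrank (ZMod p) k ≤ (1 + n) * finrank (ZMod p) k := by
    rw [← Finset.sum_mul]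
    exact Nat.mul_le_mul_right _ hn
  have hcard : Nat.card ((datum S).Sel hB L) ≤
      Nat.card ((datum S).SelDual hA hB (Base.isSmooth_T p S hpS) (trPair p) hβ tr L) *
        Nat.card k ^ n :=
    card_le_card_mul_pow_of_finrank p n (hgw.trans (Nat.add_le_add_left hsum _))
  -- the primal count
  have hfinB1 : Finite (B1 rb 1) := finite_B1 rb 1
  have hfinH1B : Finite ((datum S).H (adRep p rb 1) hB 1) := Module.finite_of_finite (ZMod p)
  have hfinSel : Finite (((datum S).Sel hB L : Set ((datum S).H (adRep p rb 1) hB 1))) :=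
    Finite.of_injective (fun x => (x : (datum S).H (adRep p rb 1) hB 1)) Subtype.val_injective
  obtain ⟨h𝒮fin, hprimal⟩ := card_le_of_cls (Z1S rb 1 S) (B1 rb 1) 𝒮 h𝒮
    dB.clsG.toAddMonoidHom (fun z hz => (dB.kerG z).1 hz)
    ((datum S).Sel hB L : Set ((datum S).H (adRep p rb 1) hB 1)) (fun z hz => by
      show dB.clsG z ∈ (datum S).Sel hB L
      rw [LocDatum.mem_Sel]
      intro v
      rw [dB.compat v z]
      exact (mem_locImage p dB v (ℒ v) _).2 ⟨_, h𝒮loc _ hz v, rfl⟩)
  -- the dual count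
  have hdual : Nat.card (B1 rb (detChar rb)) *
      Nat.card (((datum S).SelDual hA hB (Base.isSmooth_T p S hpS) (trPair p) hβ tr L :
        Set ((datum S).H (adRep p rb (detChar rb)) hA 1))) ≤ Nat.card A := by
    refine card_mul_le_of_cls (Z1S rb (detChar rb) S) (B1 rb (detChar rb)) hBZ
      dA.clsG.toAddMonoidHom dA.surjG dA.kerG _ A ?_
    intro z hz
    refine hAset _ z.2 fun v hv => ?_
    have hL : L v = ⊤ := by
      show locImage p dB v (ℒ v) = ⊤
      rw [hQs v hv]
      exact locImage_Z1On p dB v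
    have h1 := H.resv_eq_zero_of_mem_SelDual hA hB (trPair p) hβ hperf L v hL (dA.clsG z) hz
    rw [dA.compat v z] at h1
    exact (dA.kerL v _).1 h1
  refine ⟨h𝒮fin, ?_⟩
  calc Nat.card 𝒮 * Nat.card (B1 rb (detChar rb))
      ≤ (Nat.card (B1 rb 1) * Nat.card ((datum S).Sel hB L)) * Nat.card (B1 rb (detChar rb)) :=
        Nat.mul_le_mul_right _ hprimal
    _ ≤ (Nat.card (B1 rb 1) *
          (Nat.card ((datum S).SelDual hA hB (Base.isSmooth_T p S hpS) (trPair p) hβ tr L) *
            Nat.card k ^ n)) * Nat.card (B1 rb (detChar rb)) :=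
        Nat.mul_le_mul_right _ (Nat.mul_le_mul_left _ hcard)
    _ = Nat.card (B1 rb 1) * (Nat.card k ^ n * (Nat.card (B1 rb (detChar rb)) *
          Nat.card ((datum S).SelDual hA hB (Base.isSmooth_T p S hpS) (trPair p) hβ tr L))) := by
        ring
    _ ≤ Nat.card (B1 rb 1) * (Nat.card k ^ n * Nat.card A) :=
        Nat.mul_le_mul_left _ (Nat.mul_le_mul_left _ hdual)

end Global

end

end Fermat.Agent.TW.GW
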