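/-
TW-GW (task 256, GW-ASM): the Greenberg–Wiles bound `GWBound` for the Selmer spaces of S56, from
the cocycle dictionary (`Dict`), the Poitou–Tate package (`GWHyp`), perfectness of the trace
pairing, `h⁰(ad⁰) = 0` and the Euler characteristic bound (EC), all for the sets of primes
`S ⊇ Smin ∪ T`.
-/
import Mathlib
import Fermat.Agent.TW.GW.Count
import Fermat.Agent.TW.ResHyp
import Fermat.Agent.TW.Local.Away
import Fermat.Agent.PT.Base.MackeyGQ

set_option autoImplicit false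

namespace Fermat.Agent.TW.GW

open Fermat.Agent.S53 Fermat.Agent.PT Fermat.Agent.PT.Bridge ExtCitation Module

noncomputable section

variable {k : Type} [Field k]

/-- The sum of the local defects is at most `1 + #Q`. -/
theorem sum_delta_le (S : Finset Nat.Primes) (p : ℕ) (Q : Finset ℕ) :
    ∑ v : ↥S, (if (v.1 : ℕ) = p then 1 else if (v.1 : ℕ) ∈ Q then 1 else 0) ≤ 1 + Q.card := by
  classical
  have h1 : ∀ v : ↥S, (if (v.1 : ℕ) = p then 1 else if (v.1 : ℕ) ∈ Q then 1 else 0) ≤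
      (if (v.1 : ℕ) = p then 1 else 0) + (if (v.1 : ℕ) ∈ Q then 1 else 0) := by
    intro v
    split_ifs <;> omega
  refine (Finset.sum_le_sum fun v _ => h1 v).trans ?_
  rw [Finset.sum_add_distrib]
  refine Nat.add_le_add ?_ ?_
  · rw [Finset.sum_boole]
    simp only [Nat.cast_id]
    exact Finset.card_le_one.2 fun a ha b hb => Subtype.ext (Subtype.ext
      ((Finset.mem_filter.1 ha).2.trans (Finset.mem_filter.1 hb).2.symm))
  · rw [Finset.sum_boole]
    simp only [Nat.cast_id]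
    exact Finset.card_le_card_of_injOn (fun v : ↥S => (v.1 : ℕ))
      (fun v hv => (Finset.mem_filter.1 hv).2) fun a _ b _ hab => Subtype.ext (Subtype.ext hab)

set_option maxHeartbeats 1000000 in
/-- **The Greenberg–Wiles bound for the Selmer spaces of S56**, from the dictionary, the
Poitou–Tate package, perfectness of the trace pairing, `h⁰(ad⁰) = 0` and (EC). -/
theorem gwBound_selSpace_of [Finite k] (rb : GQ →* Mat2 k) (p : ℕ) [Fact p.Prime]
    [Algebra (ZMod p) k] (hp2 : p ≠ 2) (h : ResidualHyp rb p) (Smin : Finset ℕ) (hpS : p ∈ Smin)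
    (hunr : ∀ q : ℕ, q.Prime → q ∉ Smin → ∀ P : ValuationSubring (AlgebraicClosure ℚ),
      P.LiesOverPrime q → ∀ σ ∈ P.inertiaSubgroupIn ℚ, rb σ = 1)
    (Lp : LocFamily k)
    (hLp : ∀ P : ValuationSubring (AlgebraicClosure ℚ), P.LiesOverPrime p →
      LocBound rb P 1 (Lp P))
    (T : Finset Nat.Primes)
    (hperf : Function.Bijective (trPair p : sl2 k →ₗ[ZMod p] sl2 k →ₗ[ZMod p] ZMod p))
    (hin : ∀ S : Finset Nat.Primes, primesOfNat Smin ∪ T ⊆ S → ∀ (hpS' : pPrime p ∈ S)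
      (hunr' : ∀ q : Nat.Primes, q ∉ S → ∀ P : ValuationSubring (AlgebraicClosure ℚ),
        P.LiesOverPrime (q : ℕ) → ∀ σ ∈ P.inertiaSubgroupIn ℚ, rb σ = 1),
      (∃ tr, LocDatum.GWHyp (datum S) (cycloChar p) (Base.isSmooth_T p S hpS') tr) ∧
      Nonempty (Dict p rb 1 S (isSmooth_adRep_one p S h.finiteLevel' hunr')) ∧
      Nonempty (Dict p rb (detChar rb) S (isSmooth_adRep_det p S h.finiteLevel' hunr')) ∧
      finrank (ZMod p)
        ((datum S).H (adRep p rb 1) (isSmooth_adRep_one p S h.finiteLevel' hunr') 0) = 0 ∧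
      finrank (ZMod p) ((datum S).H (adRep p rb (detChar rb))
          (isSmooth_adRep_det p S h.finiteLevel' hunr') 2) + finrank (ZMod p) k ≤
        finrank (ZMod p) ((datum S).H (adRep p rb (detChar rb))
          (isSmooth_adRep_det p S h.finiteLevel' hunr') 1)) :
    GWBound rb (detChar rb) (IsTWPrime rb p 0 Smin) (fun Q => SelSpace rb p Smin Q Lp) := by
  classical
  have hpS₀ : pPrime p ∈ primesOfNat Smin ∪ T :=
    Finset.mem_union_left _ ((mem_primesOfNat _ _).2 hpS)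
  -- unramifiedness outside every `S ⊇ Smin`
  have hunrS : ∀ S : Finset Nat.Primes, primesOfNat Smin ⊆ S → ∀ q : Nat.Primes, q ∉ S →
      ∀ P : ValuationSubring (AlgebraicClosure ℚ), P.LiesOverPrime (q : ℕ) →
      ∀ σ ∈ P.inertiaSubgroupIn ℚ, rb σ = 1 := fun S hS q hq P hP σ hσ =>
    hunr q q.2 (fun hq' => hq (hS ((mem_primesOfNat _ _).2 hq'))) P hP σ hσ
  have hS₀ : primesOfNat Smin ⊆ primesOfNat Smin ∪ T := Finset.subset_union_left
  -- finiteness of `D`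
  have hDfin : Finite (Z1S rb (detChar rb) (primesOfNat Smin ∪ T)) := by
    obtain ⟨⟨tr, H⟩, -, ⟨dA⟩, -, -⟩ := hin _ subset_rfl hpS₀ (hunrS _ hS₀)
    have hslfin : Module.Finite (ZMod p) (sl2 k) := Module.Finite.of_finite
    have hH1A : Module.Finite (ZMod p) ((datum (primesOfNat Smin ∪ T)).H
        (adRep p rb (detChar rb)) (isSmooth_adRep_det p _ h.finiteLevel' (hunrS _ hS₀)) 1) :=
      H.count.fin _ _ 1 (by norm_num)
    have hfinH : Finite ((datum (primesOfNat Smin ∪ T)).H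
        (adRep p rb (detChar rb)) (isSmooth_adRep_det p _ h.finiteLevel' (hunrS _ hS₀)) 1) :=
      Module.finite_of_finite (ZMod p)
    have hfinB1 : Finite (B1 rb (detChar rb)) := finite_B1 rb _
    exact finite_of_cls (Z1S rb (detChar rb) (primesOfNat Smin ∪ T)) (B1 rb (detChar rb))
      dA.clsG.toAddMonoidHom fun z hz => (dA.kerG z).1 hz
  refine ⟨Z1S rb (detChar rb) (primesOfNat Smin ∪ T), hDfin,
    B1_le_Z1S_det h.finiteLevel' _ (hunrS _ hS₀), Z1S_le_Z1 _ _ _, fun Q hQ => ?_⟩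
  -- the set of primes for `Q`
  have hS' : primesOfNat Smin ∪ T ⊆ primesOfNat Smin ∪ T ∪ primesOfNat Q :=
    Finset.subset_union_left
  have hS'' : primesOfNat Smin ⊆ primesOfNat Smin ∪ T ∪ primesOfNat Q := hS₀.trans hS'
  have hpS' : pPrime p ∈ primesOfNat Smin ∪ T ∪ primesOfNat Q := hS' hpS₀
  obtain ⟨⟨tr, H⟩, ⟨dB⟩, ⟨dA⟩, h0, hEC⟩ := hin _ hS' hpS' (hunrS _ hS'')
  -- TW primes are not `p`
  have hQp : ∀ q ∈ Q, q ≠ p := fun q hq hqp => (hQ q hq).2.1 (hqp ▸ hpS)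
  -- the local conditions
  let ℒ : ∀ v : ↥(primesOfNat Smin ∪ T ∪ primesOfNat Q),
      Submodule k (↥((primeLocalPlace v.1).decompositionSubgroup ℚ) → Mat2 k) := fun v =>
    if (v.1 : ℕ) = p then Lp (primeLocalPlace v.1)
    else if (v.1 : ℕ) ∈ Q then Z1On ((primeLocalPlace v.1).decompositionSubgroup ℚ) rb 1
    else unrLoc rb 1 (primeLocalPlace v.1)
  let δ : ↥(primesOfNat Smin ∪ T ∪ primesOfNat Q) → ℕ := fun v =>
    if (v.1 : ℕ) = p then 1 else if (v.1 : ℕ) ∈ Q then 1 else 0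
  have hℒ : ∀ v : ↥(primesOfNat Smin ∪ T ∪ primesOfNat Q),
      LocBound rb (primeLocalPlace v.1) (δ v) (ℒ v) := by
    intro v
    have hP := Base.Mackey.liesOverPrime_primeLocalPlace v.1
    by_cases hv : (v.1 : ℕ) = p
    · simp only [ℒ, δ, if_pos hv]
      exact hLp _ (hv ▸ hP)
    · by_cases hvQ : (v.1 : ℕ) ∈ Q
      · simp only [ℒ, δ, if_neg hv, if_pos hvQ]
        exact locBound_twPrime rb p hp2 h v.1 Smin (hQ _ hvQ) hv _ hP
          (hunr _ v.1.2 (hQ _ hvQ).2.1 _ hP)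
      · simp only [ℒ, δ, if_neg hv, if_neg hvQ]
        exact locBound_unr rb p h v.1 v.1.2 _ hP
  have h𝒮loc : ∀ c ∈ SelSpace rb p Smin Q Lp,
      ∀ v : ↥(primesOfNat Smin ∪ T ∪ primesOfNat Q),
      resOn ((primeLocalPlace v.1).decompositionSubgroup ℚ) c ∈ ℒ v := by
    intro c hc v
    have hP := Base.Mackey.liesOverPrime_primeLocalPlace v.1
    by_cases hv : (v.1 : ℕ) = p
    · simp only [ℒ, if_pos hv]
      exact resOn_mem_of_mem_selSpace hc _ (hv ▸ hP)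
    · by_cases hvQ : (v.1 : ℕ) ∈ Q
      · simp only [ℒ, if_neg hv, if_pos hvQ]
        exact resOn_mem_Z1On _ hc.1
      · simp only [ℒ, if_neg hv, if_neg hvQ]
        exact resOn_mem_unrLoc_of_mem_selSpace hc v.1.2 hv hvQ _ hP
  have hQs : ∀ v ∈ {v : ↥(primesOfNat Smin ∪ T ∪ primesOfNat Q) | (v.1 : ℕ) ∈ Q},
      ℒ v = Z1On ((primeLocalPlace v.1).decompositionSubgroup ℚ) rb 1 := by
    intro v hv
    have hvQ : (v.1 : ℕ) ∈ Q := hv
    simp only [ℒ, if_neg (hQp _ hvQ), if_pos hvQ]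
  -- the target set
  let A : Set (GQ → Mat2 k) := {d | d ∈ Z1S rb (detChar rb) (primesOfNat Smin ∪ T) ∧
    ∀ q ∈ Q, LocTrivAt rb (detChar rb) d q}
  have hAfin : Finite A :=
    Finite.of_injective (fun a : A => (⟨a.1, a.2.1⟩ : Z1S rb (detChar rb) (primesOfNat Smin ∪ T)))
      fun a b hab => Subtype.ext (Subtype.mk.inj hab)
  have hAset : ∀ d ∈ Z1S rb (detChar rb) (primesOfNat Smin ∪ T ∪ primesOfNat Q),
      (∀ v ∈ {v : ↥(primesOfNat Smin ∪ T ∪ primesOfNat Q) | (v.1 : ℕ) ∈ Q},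
        resOn ((primeLocalPlace v.1).decompositionSubgroup ℚ) d ∈
          B1On ((primeLocalPlace v.1).decompositionSubgroup ℚ) rb (detChar rb)) → d ∈ A := by
    intro d hd hloc
    have hLT : ∀ q ∈ Q, LocTrivAt rb (detChar rb) d q := by
      intro q hq
      have hqp : q.Prime := (hQ q hq).1
      have hmem : (⟨q, hqp⟩ : Nat.Primes) ∈ primesOfNat Smin ∪ T ∪ primesOfNat Q :=
        Finset.mem_union_right _ ((mem_primesOfNat _ _).2 hq)
      exact locTrivAt_of_resOn_mem_B1On hqp (primeLocalPlace ⟨q, hqp⟩)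
        (Base.Mackey.liesOverPrime_primeLocalPlace ⟨q, hqp⟩) hd.1 (hloc ⟨⟨q, hqp⟩, hmem⟩ hq)
    refine ⟨⟨hd.1, fun ℓ hℓ => ?_⟩, hLT⟩
    by_cases hℓQ : (ℓ : ℕ) ∈ Q
    · exact unrAt_of_locTrivAt (hLT ℓ hℓQ) fun P hP σ hσ =>
        ⟨hunr ℓ ℓ.2 (hQ _ hℓQ).2.1 P hP σ hσ,
          detChar_eq_one_of rb σ (hunr ℓ ℓ.2 (hQ _ hℓQ).2.1 P hP σ hσ)⟩
    · refine hd.2 ℓ fun hmem => ?_
      rcases Finset.mem_union.1 hmem with h1 | h1
      · exact hℓ h1
      · exact hℓQ ((mem_primesOfNat _ _).1 h1)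
  obtain ⟨hfin, hcount⟩ := card_le_of_dict p _ hpS' _ _ H (trPair_equivariant p h) hperf dB dA
    h0 hEC ℒ δ hℒ Q.card (sum_delta_le _ p Q) (SelSpace rb p Smin Q Lp)
    (selSpace_le_Z1S rb p Smin Q Lp T) h𝒮loc _ hQs
    (B1_le_Z1S_det h.finiteLevel' _ (hunrS _ hS'')) A hAset
  refine ⟨hfin, ?_⟩
  obtain ⟨hb1, hb2⟩ := card_B1_eq rb p hp2 h
  rw [hb1, hb2] at hcount
  have hkpos : 0 < Nat.card k ^ 3 := pow_pos Nat.card_pos 3
  have h1 : Nat.card (SelSpace rb p Smin Q Lp) ≤ Nat.card k ^ Q.card * Nat.card A := by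
    refine Nat.le_of_mul_le_mul_left ?_ hkpos
    rw [mul_comm]
    exact hcount
  refine h1.trans (Nat.mul_le_mul_left _ ?_)
  have : Finite {d : Z1S rb (detChar rb) (primesOfNat Smin ∪ T) //
      ∀ q ∈ Q, LocTrivAt rb (detChar rb) (d : GQ → Mat2 k) q} := inferInstance
  exact Nat.card_le_card_of_injective
    (fun a : A => (⟨⟨a.1, a.2.1⟩, a.2.2⟩ : {d : Z1S rb (detChar rb) (primesOfNat Smin ∪ T) //
      ∀ q ∈ Q, LocTrivAt rb (detChar rb) (d : GQ → Mat2 k) q}))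
    fun a b hab => Subtype.ext (Subtype.mk.inj (Subtype.mk.inj hab))

end

end Fermat.Agent.TW.GW
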