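/-
TW-GW (task 256, GW-ASM): the Greenberg–Wiles bound `GWBound` for the Selmer spaces of S56 from
the single remaining input (EC-CHI): Tate's Euler characteristic formula for the induced
characters `Coind_U k(ψ)`.

* `gwBound_selSpace_of_chi` : with an `𝔽_p`-algebra structure on `k` as a binder;
* `gwBound_selSpace_of_chi'` : without (the algebra structure is `ZMod.algebra k p`).
-/
import Mathlib
import Fermat.Agent.TW.GW.Main
import Fermat.Agent.TW.GW.Dict
import Fermat.Agent.TW.GW.TrPerf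
import Fermat.Agent.TW.EC.Final
import Fermat.Agent.PT.OutFinal

set_option autoImplicit false

namespace Fermat.Agent.TW.GW

open Fermat.Agent.S53 Fermat.Agent.PT Fermat.Agent.PT.Bridge ExtCitation Module

noncomputable section

variable {k : Type} [Field k]

/-- **The Greenberg–Wiles bound for the Selmer spaces of S56**, from (EC-CHI). -/
theorem gwBound_selSpace_of_chi [Finite k] (rb : GQ →* Mat2 k) (p : ℕ) [Fact p.Prime]
    [Algebra (ZMod p) k] (hp2 : p ≠ 2) (h : ResidualHyp rb p) (Smin : Finset ℕ) (hpS : p ∈ Smin)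
    (hunr : ∀ q : ℕ, q.Prime → q ∉ Smin → ∀ P : ValuationSubring (AlgebraicClosure ℚ),
      P.LiesOverPrime q → ∀ σ ∈ P.inertiaSubgroupIn ℚ, rb σ = 1)
    (Lp : LocFamily k)
    (hLp : ∀ P : ValuationSubring (AlgebraicClosure ℚ), P.LiesOverPrime p →
      LocBound rb P 1 (Lp P))
    (hCHI : ∃ T : Finset Nat.Primes, ∀ S : Finset Nat.Primes, T ⊆ S →
      (∀ q : Nat.Primes, q ∉ S → ∀ P : ValuationSubring (AlgebraicClosure ℚ),
        P.LiesOverPrime (q : ℕ) → ∀ σ ∈ P.inertiaSubgroupIn ℚ, rb σ = 1) →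
      PTOut p S → EC.CHIStatement (datum S) complexConjugation rb.ker (ZMod p) k) :
    GWBound rb (detChar rb) (IsTWPrime rb p 0 Smin) (fun Q => SelSpace rb p Smin Q Lp) := by
  obtain ⟨T₀, hT₀⟩ := EC.exists_finset_ec_of_chi p rb hp2 h hCHI
  refine gwBound_selSpace_of rb p hp2 h Smin hpS hunr Lp hLp T₀ (trPair_bijective p hp2) ?_
  intro S hS hpS' hunr'
  exact ⟨PT.exists_gwHypAll p S hp2 hpS', nonempty_dict_one p S h.finiteLevel' hunr' _,
    nonempty_dict_det p S h.finiteLevel' hunr' _, finrank_H_zero_adRep_one p hp2 S h _,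
    hT₀ S (Finset.union_subset_right hS) hunr' (PT.ptOutAll p S hp2 hpS')⟩

/-- **The Greenberg–Wiles bound for the Selmer spaces of S56**, from (EC-CHI), without an
algebra binder: (EC-CHI) is required for every `𝔽_p`-algebra structure on `k`. -/
theorem gwBound_selSpace_of_chi' [Finite k] (rb : GQ →* Mat2 k) (p : ℕ) [Fact p.Prime]
    (hp2 : p ≠ 2) (h : ResidualHyp rb p) (Smin : Finset ℕ) (hpS : p ∈ Smin)
    (hunr : ∀ q : ℕ, q.Prime → q ∉ Smin → ∀ P : ValuationSubring (AlgebraicClosure ℚ),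
      P.LiesOverPrime q → ∀ σ ∈ P.inertiaSubgroupIn ℚ, rb σ = 1)
    (Lp : LocFamily k)
    (hLp : ∀ P : ValuationSubring (AlgebraicClosure ℚ), P.LiesOverPrime p →
      LocBound rb P 1 (Lp P))
    (hCHI : ∀ [Algebra (ZMod p) k], ∃ T : Finset Nat.Primes, ∀ S : Finset Nat.Primes, T ⊆ S →
      (∀ q : Nat.Primes, q ∉ S → ∀ P : ValuationSubring (AlgebraicClosure ℚ),
        P.LiesOverPrime (q : ℕ) → ∀ σ ∈ P.inertiaSubgroupIn ℚ, rb σ = 1) →
      PTOut p S → EC.CHIStatement (datum S) complexConjugation rb.ker (ZMod p) k) :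
    GWBound rb (detChar rb) (IsTWPrime rb p 0 Smin) (fun Q => SelSpace rb p Smin Q Lp) := by
  have : CharP k p := (CharP.charP_iff_prime_eq_zero (Fact.out : p.Prime)).mpr h.charP
  let _ : Algebra (ZMod p) k := ZMod.algebra k p
  exact gwBound_selSpace_of_chi rb p hp2 h Smin hpS hunr Lp hLp hCHI

end

end Fermat.Agent.TW.GW
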