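/-
TW-GW (task 313): local conditions in the cocycle dictionary.

* `locImgD p D hD ℒ`, `locImg p S hsm v ℒ` : the image in `H¹` of a space `ℒ` of local cocycles;
* `card_locImg` : `#image(ℒ) · #B¹ = #ℒ` for `B1On ≤ ℒ ≤ Z1On`;
* `finrank_locImg_le` : `dim image(ℒ) ≤ h⁰_v(ad⁰) + δ · [k : 𝔽_p]` from `LocBound`;
* `clsG_mem_Sel`, `clsG_mem_Sel_iff` : the Selmer group of the conditions `image(ℒ v)`;
* `resv_clsG_eq_zero_iff` : local triviality of a class.
-/
import Mathlib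
import Fermat.Agent.TW.GW.Dict

set_option autoImplicit false

namespace Fermat.Agent.TW.GW

open Fermat.Agent.S53 Fermat.Agent.PT Fermat.Agent.PT.Bridge ExtCitation

local notation "Qb" => AlgebraicClosure ℚ

noncomputable section

variable {k : Type} [Field k] (p : ℕ) [Fact p.Prime] [Algebra (ZMod p) k]

/-! ### Local conditions -/

/-- `#ker · #range = #source` for a homomorphism of additive groups. -/
theorem card_ker_mul_card_range' {A B : Type*} [AddGroup A] [AddGroup B] (f : A →+ B) :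
    Nat.card f.ker * Nat.card f.range = Nat.card A := by
  rw [← AddSubgroup.index_ker, AddSubgroup.card_mul_index]

/-- The image in `H¹(D; adRep)` of a space `ℒ` of cocycles on `D`. -/
def locImgD (D : Subgroup GQ) {rb : GQ →* Mat2 k} {χ : GQ →* kˣ}
    (hD : (levD D).IsSmooth ((adRep p rb χ).comp D.subtype)) (ℒ : Submodule k (D → Mat2 k)) :
    Submodule (ZMod p) (((levD D).cx ((adRep p rb χ).comp D.subtype) hD).H 1) :=
  ((ℒ.restrictScalars (ZMod p)).comap
    ((Z1On D rb χ).subtype.restrictScalars (ZMod p))).map (clsD p D hD)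

theorem mem_locImgD (D : Subgroup GQ) {rb : GQ →* Mat2 k} {χ : GQ →* kˣ}
    (hD : (levD D).IsSmooth ((adRep p rb χ).comp D.subtype)) (ℒ : Submodule k (D → Mat2 k))
    (x : ((levD D).cx ((adRep p rb χ).comp D.subtype) hD).H 1) :
    x ∈ locImgD p D hD ℒ ↔
      ∃ c : ↥(Z1On D rb χ), (c : D → Mat2 k) ∈ ℒ ∧ clsD p D hD c = x := Iff.rfl

/-- the class of a cocycle lies in the image of `ℒ ⊇ B1On` iff the cocycle lies in `ℒ` -/
theorem clsD_mem_locImgD_iff (D : Subgroup GQ) {rb : GQ →* Mat2 k} {χ : GQ →* kˣ}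
    (hD : (levD D).IsSmooth ((adRep p rb χ).comp D.subtype)) (ℒ : Submodule k (D → Mat2 k))
    (hB : B1On D rb χ ≤ ℒ) (c : ↥(Z1On D rb χ)) :
    clsD p D hD c ∈ locImgD p D hD ℒ ↔ (c : D → Mat2 k) ∈ ℒ := by
  constructor
  · rintro ⟨c', hc', h⟩
    have h1 := hB ((clsD_eq_iff p D hD c' c).mp h)
    have h2 : (c : D → Mat2 k) = c' - ((c' : D → Mat2 k) - c) := by abel
    rw [h2]
    exact sub_mem hc' h1
  · intro hc
    exact ⟨c, hc, rfl⟩

theorem locImgD_Z1On (D : Subgroup GQ) {rb : GQ →* Mat2 k} {χ : GQ →* kˣ}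
    (hD : (levD D).IsSmooth ((adRep p rb χ).comp D.subtype)) :
    locImgD p D hD (Z1On D rb χ) = ⊤ := by
  rw [eq_top_iff]
  intro x _
  obtain ⟨c, rfl⟩ := clsD_surjective p D hD x
  exact ⟨c, c.2, rfl⟩

theorem locImgD_mono (D : Subgroup GQ) {rb : GQ →* Mat2 k} {χ : GQ →* kˣ}
    (hD : (levD D).IsSmooth ((adRep p rb χ).comp D.subtype)) {ℒ ℒ' : Submodule k (D → Mat2 k)}
    (h : ℒ ≤ ℒ') : locImgD p D hD ℒ ≤ locImgD p D hD ℒ' := by
  rintro x ⟨c, hc, rfl⟩
  exact ⟨c, h hc, rfl⟩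

/-- **`#image(ℒ) · #B¹ = #ℒ`** for `B1On ≤ ℒ ≤ Z1On`. -/
theorem card_locImgD (D : Subgroup GQ) {rb : GQ →* Mat2 k} {χ : GQ →* kˣ}
    (hD : (levD D).IsSmooth ((adRep p rb χ).comp D.subtype)) (ℒ : Submodule k (D → Mat2 k))
    (hB : B1On D rb χ ≤ ℒ) (hZ : ℒ ≤ Z1On D rb χ) :
    Nat.card ↥(locImgD p D hD ℒ) * Nat.card ↥(B1On D rb χ) = Nat.card ↥ℒ := by
  set f : ↥ℒ →+ ((levD D).cx ((adRep p rb χ).comp D.subtype) hD).H 1 :=
    (clsD p D hD).toAddMonoidHom.comp (Submodule.inclusion hZ).toAddMonoidHom with hf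
  have hfa : ∀ c : ↥ℒ, f c = clsD p D hD ⟨c.1, hZ c.2⟩ := fun c => rfl
  have e1 : Nat.card ↥(locImgD p D hD ℒ) = Nat.card f.range := by
    refine Nat.card_congr (Equiv.subtypeEquivRight fun x => ?_)
    constructor
    · rintro ⟨c, hc, rfl⟩
      exact ⟨⟨c.1, hc⟩, rfl⟩
    · rintro ⟨c, rfl⟩
      exact ⟨⟨c.1, hZ c.2⟩, c.2, rfl⟩
  have e2 : Nat.card ↥(B1On D rb χ) = Nat.card f.ker := by
    refine Nat.card_congr
      { toFun := fun b => ⟨⟨b.1, hB b.2⟩, ?_⟩
        invFun := fun c => ⟨c.1.1, ?_⟩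
        left_inv := fun _ => rfl
        right_inv := fun _ => rfl }
    · rw [AddMonoidHom.mem_ker, hfa]
      exact (clsD_eq_zero_iff p D hD _).mpr b.2
    · have := c.2
      rw [AddMonoidHom.mem_ker, hfa] at this
      exact (clsD_eq_zero_iff p D hD _).mp this
  rw [e1, e2, mul_comm]
  exact card_ker_mul_card_range' f

/-- the cardinality of a finite `𝔽_p`-subspace -/
theorem card_sub_eq_pow {V : Type*} [AddCommGroup V] [Module (ZMod p) V]
    (W : Submodule (ZMod p) V) (hW : Finite ↥W) :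
    Nat.card ↥W = p ^ Module.finrank (ZMod p) ↥W := by
  have : Module.Finite (ZMod p) ↥W := Module.Finite.of_finite
  rw [Module.natCard_eq_pow_finrank (K := ZMod p) (V := ↥W), Nat.card_zmod]

/-- the cardinality of a finite `k`-subspace, in terms of its `𝔽_p`-dimension -/
theorem card_sub_eq_pow' {V : Type*} [AddCommGroup V] [Module k V] [Module (ZMod p) V]
    [IsScalarTower (ZMod p) k V] (W : Submodule k V) (hW : Finite ↥W) :
    Nat.card ↥W = p ^ Module.finrank (ZMod p) ↥W := by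
  have : Module.Finite (ZMod p) ↥W := Module.Finite.of_finite
  rw [Module.natCard_eq_pow_finrank (K := ZMod p) (V := ↥W), Nat.card_zmod]

/-- **The local bound**: for `ℒ` with `LocBound`-type cardinality bound,
`dim image(ℒ) ≤ h⁰(D; ad⁰) + δ · [k : 𝔽_p]`. -/
theorem finrank_locImgD_le [Module.Finite (ZMod p) k] (D : Subgroup GQ) {rb : GQ →* Mat2 k}
    {χ : GQ →* kˣ} (hD : (levD D).IsSmooth ((adRep p rb χ).comp D.subtype))
    (ℒ : Submodule k (D → Mat2 k)) (hB : B1On D rb χ ≤ ℒ) (hZ : ℒ ≤ Z1On D rb χ)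
    (hfin : Finite ↥ℒ) (δ : ℕ)
    (hcard : Nat.card ↥ℒ ≤ Nat.card ↥(H0On D rb χ) * Nat.card k ^ δ * Nat.card ↥(B1On D rb χ)) :
    Module.finrank (ZMod p) ↥(locImgD p D hD ℒ) ≤
      Module.finrank (ZMod p) (((levD D).cx ((adRep p rb χ).comp D.subtype) hD).H 0) +
        δ * Module.finrank (ZMod p) k := by
  have hp : p.Prime := Fact.out
  have hkfin : Finite k := Module.finite_of_finite (ZMod p)
  have hMfin : Finite (Mat2 k) := inferInstance
  have hBfin : Finite ↥(B1On D rb χ) :=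
    Finite.of_injective (Submodule.inclusion hB) (Submodule.inclusion_injective hB)
  have hBpos : 0 < Nat.card ↥(B1On D rb χ) := Nat.card_pos
  have hIfin : Finite ↥(locImgD p D hD ℒ) := by
    have hsurj : Function.Surjective
        (fun c : ↥ℒ => (⟨clsD p D hD ⟨c.1, hZ c.2⟩, ⟨c.1, hZ c.2⟩, c.2, rfl⟩ :
          ↥(locImgD p D hD ℒ))) := by
      rintro ⟨x, c, hc, rfl⟩
      exact ⟨⟨c.1, hc⟩, rfl⟩
    exact Finite.of_surjective _ hsurj
  have h1 := card_locImgD p D hD ℒ hB hZ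
  have h2 : Nat.card ↥(locImgD p D hD ℒ) ≤ Nat.card ↥(H0On D rb χ) * Nat.card k ^ δ := by
    refine Nat.le_of_mul_le_mul_right ?_ hBpos
    rw [h1]
    exact hcard
  have hHfin : Finite ↥(H0On D rb χ) := inferInstance
  have c1 := card_sub_eq_pow p (locImgD p D hD ℒ) hIfin
  have c2 := card_sub_eq_pow' p (H0On D rb χ) hHfin
  have c3 : Nat.card k = p ^ Module.finrank (ZMod p) k := by
    rw [Module.natCard_eq_pow_finrank (K := ZMod p) (V := k), Nat.card_zmod]
  have c4 : Nat.card ↥(H0On D rb χ) * Nat.card k ^ δ =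
      p ^ (Module.finrank (ZMod p) ↥(H0On D rb χ) + Module.finrank (ZMod p) k * δ) := by
    rw [c2, c3, ← pow_mul, ← pow_add]
  have h3 : p ^ Module.finrank (ZMod p) ↥(locImgD p D hD ℒ) ≤
      p ^ (Module.finrank (ZMod p) ↥(H0On D rb χ) + Module.finrank (ZMod p) k * δ) :=
    c1.symm.le.trans (h2.trans c4.le)
  have h4 := (Nat.pow_le_pow_iff_right hp.one_lt).mp h3
  have h5 := finrank_H0_levD p D hD
  rw [h5, mul_comm δ]
  exact h4

/-- **The local condition at a place of the datum** attached to a space of cocycles. -/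
def locImg (S : Finset Nat.Primes) {rb : GQ →* Mat2 k} {χ : GQ →* kˣ}
    (hsm : (datum S).IsSmooth (adRep p rb χ)) (v : ↥S)
    (ℒ : Submodule k (↥((primeLocalPlace v.1).decompositionSubgroup ℚ) → Mat2 k)) :
    Submodule (ZMod p) ((datum S).Hv (adRep p rb χ) hsm v 1) :=
  locImgD p ((primeLocalPlace v.1).decompositionSubgroup ℚ) ((datum S).isSmooth_resRep hsm v) ℒ

theorem mem_locImg (S : Finset Nat.Primes) {rb : GQ →* Mat2 k} {χ : GQ →* kˣ}
    (hsm : (datum S).IsSmooth (adRep p rb χ)) (v : ↥S)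
    (ℒ : Submodule k (↥((primeLocalPlace v.1).decompositionSubgroup ℚ) → Mat2 k))
    (x : (datum S).Hv (adRep p rb χ) hsm v 1) :
    x ∈ locImg p S hsm v ℒ ↔
      ∃ c : ↥(Z1On ((primeLocalPlace v.1).decompositionSubgroup ℚ) rb χ),
        (c : ↥((primeLocalPlace v.1).decompositionSubgroup ℚ) → Mat2 k) ∈ ℒ ∧
          clsL p S hsm v c = x := Iff.rfl

theorem clsL_mem_locImg_iff (S : Finset Nat.Primes) {rb : GQ →* Mat2 k} {χ : GQ →* kˣ}
    (hsm : (datum S).IsSmooth (adRep p rb χ)) (v : ↥S)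
    (ℒ : Submodule k (↥((primeLocalPlace v.1).decompositionSubgroup ℚ) → Mat2 k))
    (hB : B1On ((primeLocalPlace v.1).decompositionSubgroup ℚ) rb χ ≤ ℒ)
    (c : ↥(Z1On ((primeLocalPlace v.1).decompositionSubgroup ℚ) rb χ)) :
    clsL p S hsm v c ∈ locImg p S hsm v ℒ ↔
      (c : ↥((primeLocalPlace v.1).decompositionSubgroup ℚ) → Mat2 k) ∈ ℒ :=
  clsD_mem_locImgD_iff p _ _ ℒ hB c

theorem locImg_Z1On (S : Finset Nat.Primes) {rb : GQ →* Mat2 k} {χ : GQ →* kˣ}
    (hsm : (datum S).IsSmooth (adRep p rb χ)) (v : ↥S) :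
    locImg p S hsm v (Z1On ((primeLocalPlace v.1).decompositionSubgroup ℚ) rb χ) = ⊤ :=
  locImgD_Z1On p _ _

theorem card_locImg (S : Finset Nat.Primes) {rb : GQ →* Mat2 k} {χ : GQ →* kˣ}
    (hsm : (datum S).IsSmooth (adRep p rb χ)) (v : ↥S)
    (ℒ : Submodule k (↥((primeLocalPlace v.1).decompositionSubgroup ℚ) → Mat2 k))
    (hB : B1On ((primeLocalPlace v.1).decompositionSubgroup ℚ) rb χ ≤ ℒ)
    (hZ : ℒ ≤ Z1On ((primeLocalPlace v.1).decompositionSubgroup ℚ) rb χ) :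
    Nat.card ↥(locImg p S hsm v ℒ) *
        Nat.card ↥(B1On ((primeLocalPlace v.1).decompositionSubgroup ℚ) rb χ) = Nat.card ↥ℒ :=
  card_locImgD p _ _ ℒ hB hZ

/-- **(D5)** the local bound at a place of the datum from `LocBound`:
`dim L_v ≤ h⁰_v(ad⁰) + δ · [k : 𝔽_p]`. -/
theorem finrank_locImg_le [Module.Finite (ZMod p) k] (S : Finset Nat.Primes)
    {rb : GQ →* Mat2 k} (hsm : (datum S).IsSmooth (adRep p rb 1)) (v : ↥S) (δ : ℕ)
    (ℒ : Submodule k (↥((primeLocalPlace v.1).decompositionSubgroup ℚ) → Mat2 k))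
    (hb : LocBound rb (primeLocalPlace v.1) δ ℒ) :
    Module.finrank (ZMod p) ↥(locImg p S hsm v ℒ) ≤
      Module.finrank (ZMod p) ((datum S).Hv (adRep p rb 1) hsm v 0) +
        δ * Module.finrank (ZMod p) k :=
  finrank_locImgD_le p _ _ ℒ hb.B1_le hb.le_Z1 hb.finite δ hb.card_le

/-! ### Selmer groups -/

/-- **The class of a cocycle lies in the Selmer group of the local conditions `image(ℒ v)`** as
soon as its restrictions lie in the `ℒ v`. -/
theorem clsG_mem_Sel [Module.Finite (ZMod p) k] (S : Finset Nat.Primes) {rb : GQ →* Mat2 k}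
    {χ : GQ →* kˣ} (hu : UnrData rb χ S) (hsm : (datum S).IsSmooth (adRep p rb χ))
    (ℒ : ∀ v : ↥S, Submodule k (↥((primeLocalPlace v.1).decompositionSubgroup ℚ) → Mat2 k))
    (c : ↥(Z1S rb χ S))
    (hc : ∀ v : ↥S, resOn ((primeLocalPlace v.1).decompositionSubgroup ℚ) (c : GQ → Mat2 k)
      ∈ ℒ v) :
    clsG p S hu hsm c ∈ (datum S).Sel hsm (fun v => locImg p S hsm v (ℒ v)) := by
  rw [LocDatum.mem_Sel]
  intro v
  rw [resv_clsG]
  exact ⟨_, hc v, rfl⟩

/-- When the `ℒ v` contain the local coboundaries, membership in the Selmer group is equivalent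
to the local conditions on the cocycle. -/
theorem clsG_mem_Sel_iff [Module.Finite (ZMod p) k] (S : Finset Nat.Primes)
    {rb : GQ →* Mat2 k} {χ : GQ →* kˣ} (hu : UnrData rb χ S)
    (hsm : (datum S).IsSmooth (adRep p rb χ))
    (ℒ : ∀ v : ↥S, Submodule k (↥((primeLocalPlace v.1).decompositionSubgroup ℚ) → Mat2 k))
    (hB : ∀ v : ↥S, B1On ((primeLocalPlace v.1).decompositionSubgroup ℚ) rb χ ≤ ℒ v)
    (c : ↥(Z1S rb χ S)) :
    clsG p S hu hsm c ∈ (datum S).Sel hsm (fun v => locImg p S hsm v (ℒ v)) ↔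
      ∀ v : ↥S, resOn ((primeLocalPlace v.1).decompositionSubgroup ℚ) (c : GQ → Mat2 k)
        ∈ ℒ v := by
  rw [LocDatum.mem_Sel]
  refine forall_congr' fun v => ?_
  rw [resv_clsG]
  exact clsL_mem_locImg_iff p S hsm v (ℒ v) (hB v) _

/-- The restriction to the place `v` of a class vanishes iff the cocycle is a coboundary on the
decomposition group. -/
theorem resv_clsG_eq_zero_iff [Module.Finite (ZMod p) k] (S : Finset Nat.Primes)
    {rb : GQ →* Mat2 k} {χ : GQ →* kˣ} (hu : UnrData rb χ S)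
    (hsm : (datum S).IsSmooth (adRep p rb χ)) (v : ↥S) (c : ↥(Z1S rb χ S)) :
    ((datum S).resv (adRep p rb χ) hsm v).mapH 1 (clsG p S hu hsm c) = 0 ↔
      resOn ((primeLocalPlace v.1).decompositionSubgroup ℚ) (c : GQ → Mat2 k) ∈
        B1On ((primeLocalPlace v.1).decompositionSubgroup ℚ) rb χ := by
  rw [resv_clsG, clsL_eq_zero_iff]
  rfl

end

end Fermat.Agent.TW.GW
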