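/-
TW-GW (D3″), (D3′): degree zero.

* `subsingleton_H0_adRep_one`, `finrank_H0_adRep_one` : `H⁰(G_S; ad⁰) = 0` under `ResidualHyp`,
  `p ≠ 2`; the same for `ad⁰(1)` (`…_det`);
* `card_Hv_zero_adRep` : `#H⁰_v(adRep p rb χ) = #H0On D_v rb χ` (the field `cardH0` of
  `Dict`).
-/
import Mathlib
import Fermat.Agent.TW.GW.Defs
import Fermat.Agent.TW.ResHyp
import Fermat.Agent.PT.Coh.H0Inv

set_option autoImplicit false

namespace Fermat.Agent.TW.GW

open Fermat.Agent.S53 Fermat.Agent.PT Fermat.Agent.PT.Bridge ExtCitation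

local notation "Qb" => AlgebraicClosure ℚ

variable {k : Type} [Field k] (p : ℕ) [Fact p.Prime] [Algebra (ZMod p) k]

/-- **(D3″)** `H⁰(G_S; ad⁰) = 0`. -/
theorem subsingleton_H0_adRep_one (hp2 : p ≠ 2) {rb : GQ →* Mat2 k} (h : ResidualHyp rb p)
    (S : Finset Nat.Primes) (hsm : (datum S).IsSmooth (adRep p rb 1)) :
    Subsingleton ((datum S).H (adRep p rb 1) hsm 0) :=
  (datum S).L.subsingleton_H_zero hsm fun X hX =>
    Subtype.ext (ResHyp.eq_zero_of_adAct_one rb p hp2 h X.1 ((mem_sl2 _).mp X.2)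
      fun σ => congrArg Subtype.val (hX σ))

/-- **(D3″)** `h⁰(G_S; ad⁰) = 0`. -/
theorem finrank_H0_adRep_one (hp2 : p ≠ 2) {rb : GQ →* Mat2 k} (h : ResidualHyp rb p)
    (S : Finset Nat.Primes) (hsm : (datum S).IsSmooth (adRep p rb 1)) :
    Module.finrank (ZMod p) ((datum S).H (adRep p rb 1) hsm 0) = 0 := by
  have := subsingleton_H0_adRep_one p hp2 h S hsm
  exact Module.finrank_zero_of_subsingleton

/-- `H⁰(G_S; ad⁰(1)) = 0`. -/
theorem subsingleton_H0_adRep_det (hp2 : p ≠ 2) {rb : GQ →* Mat2 k} (h : ResidualHyp rb p)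
    (S : Finset Nat.Primes) (hsm : (datum S).IsSmooth (adRep p rb (detChar rb))) :
    Subsingleton ((datum S).H (adRep p rb (detChar rb)) hsm 0) :=
  (datum S).L.subsingleton_H_zero hsm fun X hX =>
    Subtype.ext (ResHyp.eq_zero_of_adAct_det rb p hp2 h X.1 ((mem_sl2 _).mp X.2)
      fun σ => congrArg Subtype.val (hX σ))

/-- `h⁰(G_S; ad⁰(1)) = 0`. -/
theorem finrank_H0_adRep_det (hp2 : p ≠ 2) {rb : GQ →* Mat2 k} (h : ResidualHyp rb p)
    (S : Finset Nat.Primes) (hsm : (datum S).IsSmooth (adRep p rb (detChar rb))) :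
    Module.finrank (ZMod p) ((datum S).H (adRep p rb (detChar rb)) hsm 0) = 0 := by
  have := subsingleton_H0_adRep_det p hp2 h S hsm
  exact Module.finrank_zero_of_subsingleton

/-- invariants of a subgroup in `adRep` are the elements of `H0On` -/
def invEquivH0On (D : Subgroup GQ) (rb : GQ →* Mat2 k) (χ : GQ →* kˣ) :
    LevelSys.inv ((adRep p rb χ).comp D.subtype) ≃ H0On D rb χ where
  toFun X := ⟨(X.1 : Mat2 k), (mem_sl2 _).mp X.1.2,
    fun σ hσ => congrArg Subtype.val (X.2 ⟨σ, hσ⟩)⟩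
  invFun Y := ⟨⟨Y.1, (mem_sl2 _).mpr Y.2.1⟩, fun g => Subtype.ext (Y.2.2 g.1 g.2)⟩
  left_inv _ := rfl
  right_inv _ := rfl

/-- **(D3′)** `#H⁰_v(adRep p rb χ) = #H0On D_v rb χ` — the field `cardH0` of `Dict`. -/
theorem card_Hv_zero_adRep (rb : GQ →* Mat2 k) (χ : GQ →* kˣ) (S : Finset Nat.Primes)
    (hsm : (datum S).IsSmooth (adRep p rb χ)) (v : ↥S) :
    Nat.card ((datum S).Hv (adRep p rb χ) hsm v 0) =
      Nat.card (H0On ((primeLocalPlace v.1).decompositionSubgroup ℚ) rb χ) :=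
  Nat.card_congr ((((datum S).Lv v).H0Equiv ((datum S).isSmooth_resRep hsm v)).symm.toEquiv.trans
    (invEquivH0On p ((primeLocalPlace v.1).decompositionSubgroup ℚ) rb χ))

end Fermat.Agent.TW.GW
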