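/-
TW-GW (D4): the trace pairing `sl2 k × sl2 k → 𝔽_p`, `(X, Y) ↦ Tr_{k/𝔽_p} (tr (X * Y))`, is
perfect for `p ≠ 2`.

* `trPair_bijective` : `X ↦ trPair p X` is a bijection `sl2 k → Module.Dual (ZMod p) (sl2 k)`.
-/
import Mathlib
import Fermat.Agent.TW.GW.Defs

set_option autoImplicit false

namespace Fermat.Agent.TW.GW

open Fermat.Agent.S53 Fermat.Agent.PT

variable {k : Type} [Field k] (p : ℕ) [Fact p.Prime] [Algebra (ZMod p) k]

/-- the trace form of a finite extension of `𝔽_p` is nondegenerate -/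
lemma eq_zero_of_trace_mul_eq_zero [Module.Finite (ZMod p) k] (a : k)
    (h : ∀ c : k, Algebra.trace (ZMod p) k (c * a) = 0) : a = 0 := by
  have hnd := traceForm_nondegenerate (ZMod p) k
  by_contra ha
  have h1 : ∀ c : k, Algebra.traceForm (ZMod p) k a c = 0 := fun c => by
    rw [Algebra.traceForm_apply, mul_comm]
    exact h c
  exact ha (hnd.1 a h1)

/-- `2 ≠ 0` in a field of characteristic `p ≠ 2` -/
lemma two_ne_zero_of_algebra (hp2 : p ≠ 2) : (2 : k) ≠ 0 := by
  have h2 : (2 : ZMod p) ≠ 0 := by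
    intro h
    have h3 : ((2 : ℕ) : ZMod p) = 0 := by exact_mod_cast h
    rw [ZMod.natCast_eq_zero_iff] at h3
    have hp := (Fact.out : p.Prime)
    have := (Nat.prime_dvd_prime_iff_eq hp Nat.prime_two).mp h3
    exact hp2 this
  intro h
  apply h2
  apply (algebraMap (ZMod p) k).injective
  rw [map_ofNat, map_zero]
  exact h

/-- the three basic trace-zero matrices -/
def sl2E (c : k) : sl2 k := ⟨!![0, c; 0, 0], by rw [mem_sl2, Matrix.trace_fin_two]; simp⟩

/-- the three basic trace-zero matrices -/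
def sl2F (c : k) : sl2 k := ⟨!![0, 0; c, 0], by rw [mem_sl2, Matrix.trace_fin_two]; simp⟩

/-- the three basic trace-zero matrices -/
def sl2H (c : k) : sl2 k := ⟨!![c, 0; 0, -c], by rw [mem_sl2, Matrix.trace_fin_two]; simp⟩

lemma trace_mul_sl2E (X : Mat2 k) (c : k) :
    Matrix.trace (X * (sl2E c : Mat2 k)) = c * X 1 0 := by
  simp [sl2E, Matrix.trace_fin_two, Matrix.mul_apply, Fin.sum_univ_two, mul_comm]

lemma trace_mul_sl2F (X : Mat2 k) (c : k) :
    Matrix.trace (X * (sl2F c : Mat2 k)) = c * X 0 1 := by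
  simp [sl2F, Matrix.trace_fin_two, Matrix.mul_apply, Fin.sum_univ_two, mul_comm]

lemma trace_mul_sl2H (X : Mat2 k) (c : k) :
    Matrix.trace (X * (sl2H c : Mat2 k)) = c * (X 0 0 - X 1 1) := by
  simp [sl2H, Matrix.trace_fin_two, Matrix.mul_apply, Fin.sum_univ_two]
  ring

/-- the trace pairing has trivial left kernel -/
theorem eq_zero_of_trPair_eq_zero [Module.Finite (ZMod p) k] (hp2 : p ≠ 2) (X : sl2 k)
    (h : ∀ Y : sl2 k, trPair p X Y = 0) : X = 0 := by
  have h10 : (X : Mat2 k) 1 0 = 0 := eq_zero_of_trace_mul_eq_zero p _ fun c => by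
    have := h (sl2E c)
    rwa [trPair_apply, trace_mul_sl2E] at this
  have h01 : (X : Mat2 k) 0 1 = 0 := eq_zero_of_trace_mul_eq_zero p _ fun c => by
    have := h (sl2F c)
    rwa [trPair_apply, trace_mul_sl2F] at this
  have hd : (X : Mat2 k) 0 0 - (X : Mat2 k) 1 1 = 0 :=
    eq_zero_of_trace_mul_eq_zero p _ fun c => by
      have := h (sl2H c)
      rwa [trPair_apply, trace_mul_sl2H] at this
  have htr : (X : Mat2 k) 0 0 + (X : Mat2 k) 1 1 = 0 := by
    have := (mem_sl2 (X : Mat2 k)).mp X.2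
    rwa [Matrix.trace_fin_two] at this
  have h2 : (2 : k) ≠ 0 := two_ne_zero_of_algebra p hp2
  have h00 : (X : Mat2 k) 0 0 = 0 := by
    have h3 : (2 : k) * (X : Mat2 k) 0 0 = 0 := by linear_combination hd + htr
    exact (mul_eq_zero.mp h3).resolve_left h2
  have h11 : (X : Mat2 k) 1 1 = 0 := by
    rw [h00, zero_add] at htr
    exact htr
  apply Subtype.ext
  ext i j
  fin_cases i <;> fin_cases j
  · exact h00
  · exact h01
  · exact h10
  · exact h11

/-- **(D4)** the trace pairing is perfect: `X ↦ trPair p X` is a bijection of `sl2 k` onto its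
`𝔽_p`-dual, for `p ≠ 2`. -/
theorem trPair_bijective [Module.Finite (ZMod p) k] (hp2 : p ≠ 2) :
    Function.Bijective (trPair p : sl2 k →ₗ[ZMod p] sl2 k →ₗ[ZMod p] ZMod p) := by
  have hfin : Module.Finite (ZMod p) (Mat2 k) := Module.Finite.matrix
  have hfin' : Module.Finite (ZMod p) (sl2 k) :=
    Module.Finite.of_injective ((sl2 k).subtype.restrictScalars (ZMod p))
      (sl2 k).injective_subtype
  have hinj : Function.Injective (trPair p : sl2 k →ₗ[ZMod p] sl2 k →ₗ[ZMod p] ZMod p) := by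
    refine (injective_iff_map_eq_zero _).mpr fun X hX => ?_
    exact eq_zero_of_trPair_eq_zero p hp2 X fun Y => by rw [hX, LinearMap.zero_apply]
  exact ⟨hinj, (LinearMap.injective_iff_surjective_of_finrank_eq_finrank
    (Subspace.dual_finrank_eq).symm).mp hinj⟩

end Fermat.Agent.TW.GW
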