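/-
TW-GW: the Greenberg–Wiles bound `GWBound` for the Selmer spaces of S56, UNCONDITIONAL
(all inputs — Poitou–Tate, the dictionary, (EC) — are theorems).

* `Uncond.gwBound_selSpace` : `GWBound rb (detChar rb) (IsTWPrime rb p 0 Smin)
  (fun Q => SelSpace rb p Smin Q Lp)` for every local family `Lp` at `p` with `LocBound … 1`.
-/
import Mathlib
import Fermat.Agent.TW.GW.Final
import Fermat.Agent.TW.EC.ECUncond

set_option autoImplicit false

namespace Fermat.Agent.TW.GW.Uncond

open Fermat.Agent.S53 Fermat.Agent.PT Fermat.Agent.PT.Bridge ExtCitation Module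

variable {k : Type} [Field k]

/-- **The Greenberg–Wiles bound for the Selmer spaces of S56** (unconditional). -/
theorem gwBound_selSpace [Finite k] (rb : GQ →* Mat2 k) (p : ℕ) [Fact p.Prime]
    (hp2 : p ≠ 2) (h : ResidualHyp rb p) (Smin : Finset ℕ) (hpS : p ∈ Smin)
    (hunr : ∀ q : ℕ, q.Prime → q ∉ Smin → ∀ P : ValuationSubring (AlgebraicClosure ℚ),
      P.LiesOverPrime q → ∀ σ ∈ P.inertiaSubgroupIn ℚ, rb σ = 1)
    (Lp : LocFamily k)
    (hLp : ∀ P : ValuationSubring (AlgebraicClosure ℚ), P.LiesOverPrime p →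
      LocBound rb P 1 (Lp P)) :
    GWBound rb (detChar rb) (IsTWPrime rb p 0 Smin) (fun Q => SelSpace rb p Smin Q Lp) :=
  gwBound_selSpace_of_chi' rb p hp2 h Smin hpS hunr Lp hLp
    (EC.ChiAsmB.chiStatement_of_unitBound p rb hp2 h (fun S => EC.ECUncond.unitBound p S))

end Fermat.Agent.TW.GW.Uncond
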